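import Mathlib
import Fermat.Prelude.Def_ModularCurve_PeriodHomPair

/-!
# S21 (Eichler–Shimura in weight 2): common definitions

Owner: helper95 (architect).  Do not edit without asking.
-/

set_option autoImplicit false

namespace Fermat.Agent.S21

open Complex CongruenceSubgroup Filter Topology ModularCurve ModularCurve.Period
open UpperHalfPlane hiding I
open scoped MatrixGroups ModularForm Manifold Real

/-! ## Analytic definitions -/

/-- `q_N(w) = exp(2πi w / N)`. -/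
noncomputable abbrev qN (N : ℕ) (w : ℂ) : ℂ := Function.Periodic.qParam (N : ℝ) w

/-- `H : ℍ → ℂ` is "holomorphic at all cusps in the parameter `q_N`": for every
`δ ∈ SL(2, ℤ)` the function `w ↦ H (δ • w)` is of the form `Ψ ∘ q_N` with `Ψ` holomorphic on
the open unit disc. -/
def CuspHolo (N : ℕ) (H : ℍ → ℂ) : Prop :=
  ∀ δ : SL(2, ℤ), ∃ Ψ : ℂ → ℂ, DifferentiableOn ℂ Ψ (Metric.ball 0 1) ∧
    ∀ w : ℍ, H (δ • w) = Ψ (qN N (w : ℂ))

/-- The reflection `z ↦ -conj z` of the upper half plane. -/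
def negConj (z : ℍ) : ℍ := ⟨-(starRingEnd ℂ) (z : ℂ), by simpa using z.im_pos⟩

@[simp] theorem coe_negConj (z : ℍ) : ((negConj z : ℍ) : ℂ) = -(starRingEnd ℂ) (z : ℂ) := rfl

/-! ## Algebraic definitions: functions on a finite `G`-set -/

section Alg

variable {G X : Type*} [Group G] [MulAction G X]

/-- The action of `g` on functions: `(g · v)(x) = v(g⁻¹ • x)`. -/
def actFun (g : G) : (X → ℂ) →ₗ[ℂ] (X → ℂ) := LinearMap.funLeft ℂ ℂ (fun x => g⁻¹ • x)

theorem actFun_apply (g : G) (v : X → ℂ) (x : X) : actFun g v x = v (g⁻¹ • x) := rfl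

variable [Fintype X]

open Classical in
/-- Orbit sums: `orbSum g v O = ∑_{x ∈ O} v x` for an orbit `O` of the cyclic group `⟨g⟩`. -/
noncomputable def orbSum (g : G) :
    (X → ℂ) →ₗ[ℂ] (MulAction.orbitRel.Quotient (Subgroup.zpowers g) X → ℂ) where
  toFun v O := ∑ x : X,
    if (Quotient.mk'' x : MulAction.orbitRel.Quotient (Subgroup.zpowers g) X) = O then v x else 0
  map_add' v w := by
    funext O
    simp only [Pi.add_apply, ← Finset.sum_add_distrib]
    refine Finset.sum_congr rfl fun x _ => ?_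
    split_ifs <;> simp
  map_smul' c v := by
    funext O
    simp only [Pi.smul_apply, smul_eq_mul, RingHom.id_apply, Finset.mul_sum]
    refine Finset.sum_congr rfl fun x _ => ?_
    split_ifs <;> simp

open Classical in
theorem orbSum_apply (g : G) (v : X → ℂ)
    (O : MulAction.orbitRel.Quotient (Subgroup.zpowers g) X) :
    orbSum g v O = ∑ x : X,
      if (Quotient.mk'' x : MulAction.orbitRel.Quotient (Subgroup.zpowers g) X) = O
        then v x else 0 := rfl

/-- The space of pairs `(a, t)` ("values of a cocycle at `S` and `T`") all of whose relevant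
orbit sums vanish. -/
noncomputable def KSpace (S T : G) : Submodule ℂ ((X → ℂ) × (X → ℂ)) where
  carrier := {p | orbSum S p.1 = 0 ∧ orbSum T p.2 = 0 ∧ orbSum (S * T) (p.1 + actFun S p.2) = 0}
  zero_mem' := by simp
  add_mem' := by
    rintro p q ⟨hp1, hp2, hp3⟩ ⟨hq1, hq2, hq3⟩
    refine ⟨by simp [hp1, hq1], by simp [hp2, hq2], ?_⟩
    have : (p + q).1 + actFun S (p + q).2 = (p.1 + actFun S p.2) + (q.1 + actFun S q.2) := by
      simp only [Prod.fst_add, Prod.snd_add, map_add]; abel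
    rw [this, map_add, hp3, hq3, add_zero]
  smul_mem' := by
    rintro c p ⟨hp1, hp2, hp3⟩
    refine ⟨by simp [hp1], by simp [hp2], ?_⟩
    have : (c • p).1 + actFun S (c • p).2 = c • (p.1 + actFun S p.2) := by
      simp only [Prod.smul_fst, Prod.smul_snd, map_smul, smul_add]
    rw [this, map_smul, hp3, smul_zero]

theorem mem_KSpace {S T : G} {p : (X → ℂ) × (X → ℂ)} :
    p ∈ KSpace S T ↔
      orbSum S p.1 = 0 ∧ orbSum T p.2 = 0 ∧ orbSum (S * T) (p.1 + actFun S p.2) = 0 := Iff.rfl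

end Alg

/-! ## The cocycle attached to a homomorphism `Γ₀(N) → ℂ` -/

/-- The coset space `SL₂(ℤ)/Γ₀(N)` with the left action of `SL₂(ℤ)`. -/
abbrev Cos (N : ℕ) : Type := SL(2, ℤ) ⧸ Gamma0 N

/-- A `Fintype` structure on the cosets (use as a local instance:
`attribute [local instance] cosFintype`). -/
@[reducible] noncomputable def cosFintype (N : ℕ) [NeZero N] : Fintype (Cos N) :=
  Subgroup.fintypeQuotientOfFiniteIndex

/-- Coset representatives. -/
noncomputable def sec (N : ℕ) (x : Cos N) : SL(2, ℤ) := Quotient.out x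

theorem mk_sec (N : ℕ) (x : Cos N) : ((sec N x : SL(2, ℤ)) : Cos N) = x :=
  QuotientGroup.out_eq' x

theorem sec_mem (N : ℕ) (g : SL(2, ℤ)) (x : Cos N) :
    (sec N x)⁻¹ * g * sec N (g⁻¹ • x) ∈ Gamma0 N := by
  have h : ((g * sec N (g⁻¹ • x) : SL(2, ℤ)) : Cos N) = ((sec N x : SL(2, ℤ)) : Cos N) := by
    have h1 : ((g * sec N (g⁻¹ • x) : SL(2, ℤ)) : Cos N) = g • ((sec N (g⁻¹ • x) : SL(2, ℤ)) : Cos N) :=
      rfl
    rw [h1, mk_sec, mk_sec, smul_inv_smul]
  have h2 := QuotientGroup.eq.mp h.symm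
  simpa [mul_assoc] using h2

/-- The cocycle `SL₂(ℤ) → (Cos N → ℂ)` attached to `ψ : Γ₀(N) → ℂ`:
`c_ψ(g)(x) = ψ (s(x)⁻¹ g s(g⁻¹ x))`. -/
noncomputable def cocyc (N : ℕ) (ψ : Additive (Gamma0 N) →+ ℂ) (g : SL(2, ℤ)) : Cos N → ℂ :=
  fun x => ψ (Additive.ofMul ⟨(sec N x)⁻¹ * g * sec N (g⁻¹ • x), sec_mem N g x⟩)

theorem cocyc_apply (N : ℕ) (ψ : Additive (Gamma0 N) →+ ℂ) (g : SL(2, ℤ)) (x : Cos N) :
    cocyc N ψ g x = ψ (Additive.ofMul ⟨(sec N x)⁻¹ * g * sec N (g⁻¹ • x), sec_mem N g x⟩) := rfl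

end Fermat.Agent.S21
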