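import Mathlib
import Fermat.Agent.S21.Defs

/-!
# S21 / OrbSum: basic properties of `actFun` and of the orbit sum maps `orbSum`
-/

set_option autoImplicit false

namespace Fermat.Agent.S21

open Complex CongruenceSubgroup Filter Topology ModularCurve ModularCurve.Period
open UpperHalfPlane hiding I
open scoped MatrixGroups ModularForm Manifold Real

section

variable {G X : Type*} [Group G] [MulAction G X]

theorem actFun_one (v : X → ℂ) : actFun (1 : G) v = v := by
  funext x
  simp [actFun_apply]

theorem actFun_mul (g h : G) (v : X → ℂ) : actFun (g * h) v = actFun g (actFun h v) := by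
  funext x
  simp [actFun_apply, mul_smul, mul_inv_rev]

private theorem orbSum_aux_mk_smul (g : G) (y : X) :
    (Quotient.mk'' (g • y) : MulAction.orbitRel.Quotient (Subgroup.zpowers g) X) =
      Quotient.mk'' y := by
  apply Quotient.sound'
  rw [MulAction.orbitRel_apply]
  exact ⟨⟨g, Subgroup.mem_zpowers g⟩, rfl⟩

variable [Fintype X]

theorem sum_actFun (g : G) (v : X → ℂ) : ∑ x, actFun g v x = ∑ x, v x := by
  simp only [actFun_apply]
  exact Equiv.sum_comp (MulAction.toPerm g⁻¹) v

theorem orbSum_actFun (g : G) (v : X → ℂ) : orbSum g (actFun g v) = orbSum g v := by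
  classical
  funext O
  rw [orbSum_apply, orbSum_apply]
  simp only [actFun_apply]
  rw [← Equiv.sum_comp (MulAction.toPerm g)
    (fun x => if (Quotient.mk'' x : MulAction.orbitRel.Quotient (Subgroup.zpowers g) X) = O
      then v (g⁻¹ • x) else 0)]
  refine Finset.sum_congr rfl fun y _ => ?_
  simp only [MulAction.toPerm_apply, inv_smul_smul, orbSum_aux_mk_smul]

theorem orbSum_sub_actFun (g : G) (v : X → ℂ) : orbSum g (v - actFun g v) = 0 := by
  rw [map_sub, orbSum_actFun, sub_self]

theorem orbSum_surjective (g : G) : Function.Surjective (orbSum (X := X) g) := by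
  classical
  intro φ
  refine ⟨fun x => if x = (Quotient.mk'' x :
    MulAction.orbitRel.Quotient (Subgroup.zpowers g) X).out then φ (Quotient.mk'' x) else 0, ?_⟩
  funext O
  rw [orbSum_apply]
  rw [Finset.sum_eq_single O.out]
  · have h : (Quotient.mk'' O.out : MulAction.orbitRel.Quotient (Subgroup.zpowers g) X) = O :=
      Quotient.out_eq' O
    simp [h]
  · intro x _ hx
    by_cases h1 : (Quotient.mk'' x : MulAction.orbitRel.Quotient (Subgroup.zpowers g) X) = O
    · have h2 : x ≠ (Quotient.mk'' x :
          MulAction.orbitRel.Quotient (Subgroup.zpowers g) X).out := by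
        rw [h1]; exact hx
      simp [h2]
    · simp [h1]
  · intro h
    exact absurd (Finset.mem_univ _) h

theorem sum_orbSum (g : G) [Fintype (MulAction.orbitRel.Quotient (Subgroup.zpowers g) X)]
    (v : X → ℂ) : ∑ O, orbSum g v O = ∑ x, v x := by
  classical
  simp only [orbSum_apply]
  rw [Finset.sum_comm]
  refine Finset.sum_congr rfl fun x _ => ?_
  rw [Finset.sum_ite_eq]
  simp

end

end Fermat.Agent.S21
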