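import Mathlib
import Fermat.Agent.S21.OrbSum

/-!
# S21 / Cocycle: properties of the cocycle `cocyc N ψ` attached to `ψ : Γ₀(N) → ℂ`
-/

set_option autoImplicit false

namespace Fermat.Agent.S21

open Complex CongruenceSubgroup Filter Topology ModularCurve ModularCurve.Period
open UpperHalfPlane hiding I
open scoped MatrixGroups ModularForm Manifold Real

variable {N : ℕ}

private theorem cocycle_aux_congr (ψ : Additive (Gamma0 N) →+ ℂ) {a b : SL(2, ℤ)}
    (ha : a ∈ Gamma0 N) (hb : b ∈ Gamma0 N) (h : a = b) :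
    ψ (Additive.ofMul ⟨a, ha⟩) = ψ (Additive.ofMul ⟨b, hb⟩) := by
  subst h; rfl

private theorem cocycle_aux_trace (s A : SL(2, ℤ)) :
    ((s⁻¹ * A * s : SL(2, ℤ)) : Matrix (Fin 2) (Fin 2) ℤ).trace =
      (A : Matrix (Fin 2) (Fin 2) ℤ).trace := by
  have h1 : ((s⁻¹ * A * s : SL(2, ℤ)) : Matrix (Fin 2) (Fin 2) ℤ) =
      ((s⁻¹ : SL(2, ℤ)) : Matrix (Fin 2) (Fin 2) ℤ) *
        ((A * s : SL(2, ℤ)) : Matrix (Fin 2) (Fin 2) ℤ) := by
    rw [mul_assoc, Matrix.SpecialLinearGroup.coe_mul]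
  have h2 : ((A * s : SL(2, ℤ)) : Matrix (Fin 2) (Fin 2) ℤ) *
      ((s⁻¹ : SL(2, ℤ)) : Matrix (Fin 2) (Fin 2) ℤ) = (A : Matrix (Fin 2) (Fin 2) ℤ) := by
    rw [← Matrix.SpecialLinearGroup.coe_mul, mul_inv_cancel_right]
  rw [h1, Matrix.trace_mul_comm, h2]

theorem cocyc_add (ψ ψ' : Additive (Gamma0 N) →+ ℂ) (g : SL(2, ℤ)) :
    cocyc N (ψ + ψ') g = cocyc N ψ g + cocyc N ψ' g := by
  funext x
  rfl

theorem cocyc_smul (a : ℂ) (ψ : Additive (Gamma0 N) →+ ℂ) (g : SL(2, ℤ)) :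
    cocyc N (a • ψ) g = a • cocyc N ψ g := by
  funext x
  rfl

/-- The cocycle identity. -/
theorem cocyc_mul (ψ : Additive (Gamma0 N) →+ ℂ) (g h : SL(2, ℤ)) :
    cocyc N ψ (g * h) = cocyc N ψ g + actFun g (cocyc N ψ h) := by
  funext x
  rw [Pi.add_apply, actFun_apply, cocyc_apply, cocyc_apply, cocyc_apply, ← map_add,
    ← ofMul_mul, MulMemClass.mk_mul_mk]
  apply cocycle_aux_congr
  rw [mul_inv_rev, mul_smul]
  group

private theorem cocycle_aux_one {X : Type*} [MulAction SL(2, ℤ) X] (c : SL(2, ℤ) → (X → ℂ))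
    (hc : ∀ g h : SL(2, ℤ), c (g * h) = c g + actFun g (c h)) : c 1 = 0 := by
  have h := hc 1 1
  rw [mul_one, actFun_one] at h
  exact left_eq_add.mp h

/-- If `c_ψ` is a coboundary then `ψ = 0`. -/
theorem eq_zero_of_cocyc_eq_coboundary (ψ : Additive (Gamma0 N) →+ ℂ) (v : Cos N → ℂ)
    (h : ∀ g : SL(2, ℤ), cocyc N ψ g = actFun g v - v) : ψ = 0 := by
  set e : Cos N := ((1 : SL(2, ℤ)) : Cos N) with he
  have hσ : sec N e ∈ Gamma0 N := by
    have h1 : ((sec N e : SL(2, ℤ)) : Cos N) = ((1 : SL(2, ℤ)) : Cos N) := mk_sec N e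
    have h2 := QuotientGroup.eq.mp h1.symm
    simpa using h2
  refine DFunLike.ext _ _ (Additive.forall.mpr ?_)
  rintro ⟨γ, hγm⟩
  have hfix : γ⁻¹ • e = e := by
    have h1 : γ⁻¹ • e = ((γ⁻¹ * 1 : SL(2, ℤ)) : Cos N) := rfl
    rw [h1, he]
    apply QuotientGroup.eq.mpr
    simpa using hγm
  have key := congrFun (h γ) e
  rw [Pi.sub_apply, actFun_apply, hfix, sub_self, cocyc_apply] at key
  have h3 : ψ (Additive.ofMul ⟨(sec N e)⁻¹ * γ * sec N (γ⁻¹ • e), sec_mem N γ e⟩) =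
      ψ (Additive.ofMul ((⟨sec N e, hσ⟩ : Gamma0 N)⁻¹ * ⟨γ, hγm⟩ * ⟨sec N e, hσ⟩)) := by
    apply cocycle_aux_congr
    rw [hfix]
    rfl
  rw [h3, ofMul_mul, ofMul_mul, ofMul_inv, map_add, map_add, map_neg] at key
  simp only [AddMonoidHom.zero_apply]
  linear_combination key

/-- A cocycle on `SL(2, ℤ)` vanishing at `S` and `T` vanishes identically. -/
theorem cocycle_eq_zero {X : Type*} [MulAction SL(2, ℤ) X] (c : SL(2, ℤ) → (X → ℂ))
    (hc : ∀ g h : SL(2, ℤ), c (g * h) = c g + actFun g (c h))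
    (hS : c ModularGroup.S = 0) (hT : c ModularGroup.T = 0) (g : SL(2, ℤ)) : c g = 0 := by
  have h1 : c 1 = 0 := cocycle_aux_one c hc
  have hg : g ∈ Subgroup.closure ({ModularGroup.S, ModularGroup.T} : Set SL(2, ℤ)) := by
    rw [SpecialLinearGroup.SL2Z_generators]; trivial
  induction hg using Subgroup.closure_induction with
  | mem x hx =>
    rcases hx with hx | hx
    · rw [hx]; exact hS
    · rw [Set.mem_singleton_iff] at hx; rw [hx]; exact hT
  | one => exact h1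
  | mul x y _ _ hx hy => rw [hc, hx, hy, map_zero, add_zero]
  | inv x _ hx =>
    have h2 := hc x x⁻¹
    rw [mul_inv_cancel, h1, hx, zero_add] at h2
    have h3 := congrArg (actFun x⁻¹) h2
    rw [map_zero, ← actFun_mul, inv_mul_cancel, actFun_one] at h3
    exact h3.symm

private theorem cocycle_aux_orbSum_pow {G X : Type*} [Group G] [MulAction G X] [Fintype X]
    (g : G) (v : X → ℂ) (k : ℕ) : orbSum g (actFun (g ^ k) v) = orbSum g v := by
  induction k with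
  | zero => rw [pow_zero, actFun_one]
  | succ k ih => rw [pow_succ', actFun_mul, orbSum_actFun, ih]

/-- If `ψ` is parabolic and `g ^ n` (`n ≥ 1`) acts trivially on the cosets and has
`trace ^ 2 = 4`, then all orbit sums of `c_ψ(g)` over the orbits of `⟨g⟩` vanish. -/
theorem orbSum_cocyc_eq_zero [Fintype (Cos N)] (ψ : Additive (Gamma0 N) →+ ℂ)
    (hψ : ψ ∈ parabolicHoms ℂ (Gamma0 N) ℂ) (g : SL(2, ℤ)) (n : ℕ) (hn : 0 < n)
    (hfix : ∀ x : Cos N, (g ^ n) • x = x)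
    (htr : (((g ^ n : SL(2, ℤ)) : SL(2, ℤ)) : Matrix (Fin 2) (Fin 2) ℤ).trace ^ 2 = 4) :
    orbSum g (cocyc N ψ g) = 0 := by
  have hk : ∀ k : ℕ, orbSum g (cocyc N ψ (g ^ k)) = (k : ℂ) • orbSum g (cocyc N ψ g) := by
    intro k
    induction k with
    | zero =>
      rw [pow_zero, cocycle_aux_one (cocyc N ψ) (cocyc_mul ψ), map_zero, Nat.cast_zero,
        zero_smul]
    | succ k ih =>
      rw [pow_succ, cocyc_mul, map_add, ih, cocycle_aux_orbSum_pow, Nat.cast_succ, add_smul,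
        one_smul]
  have hzero : cocyc N ψ (g ^ n) = 0 := by
    funext x
    have hx : (g ^ n)⁻¹ • x = x := by
      rw [inv_smul_eq_iff, hfix]
    rw [cocyc_apply, Pi.zero_apply]
    apply (mem_parabolicHoms_iff.mp hψ)
    have h1 : (sec N x)⁻¹ * g ^ n * sec N ((g ^ n)⁻¹ • x) = (sec N x)⁻¹ * g ^ n * sec N x := by
      rw [hx]
    show (((sec N x)⁻¹ * g ^ n * sec N ((g ^ n)⁻¹ • x) : SL(2, ℤ)) :
      Matrix (Fin 2) (Fin 2) ℤ).trace ^ 2 = 4
    rw [h1, cocycle_aux_trace]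
    exact htr
  have h2 := hk n
  rw [hzero, map_zero] at h2
  have hn' : (n : ℂ) ≠ 0 := by exact_mod_cast hn.ne'
  exact (smul_eq_zero.mp h2.symm).resolve_left hn'

end Fermat.Agent.S21
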