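import Mathlib
import Fermat.Agent.S21.OrbSum

/-!
# S21 / Aug: the augmentation subspace of the functions on a transitive `G`-set is generated
by `(1 - S) V + (1 - U) V` when `S, U` generate `G`
-/

set_option autoImplicit false

namespace Fermat.Agent.S21

open Complex CongruenceSubgroup Filter Topology ModularCurve ModularCurve.Period
open UpperHalfPlane hiding I
open scoped MatrixGroups ModularForm Manifold Real

section

variable {G X : Type*} [Group G] [MulAction G X]

/-- A function fixed by the whole group is constant (transitive action). -/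
theorem const_of_actFun_eq [MulAction.IsPretransitive G X] (v : X → ℂ)
    (h : ∀ g : G, actFun g v = v) (x y : X) : v x = v y := by
  obtain ⟨g, hg⟩ := MulAction.exists_smul_eq G x y
  have h1 : actFun g⁻¹ v x = v x := by rw [h g⁻¹]
  rw [actFun_apply, inv_inv, hg] at h1
  exact h1.symm

/-- The submodule `(1 - S) V + (1 - U) V`. -/
private def aug_M (S U : G) : Submodule ℂ (X → ℂ) :=
  LinearMap.range (LinearMap.id - actFun (X := X) S) ⊔
    LinearMap.range (LinearMap.id - actFun (X := X) U)

private theorem aug_mem_M_iff (S U : G) (u : X → ℂ) :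
    u ∈ aug_M S U ↔ ∃ p p' : X → ℂ, u = (p - actFun S p) + (p' - actFun U p') := by
  unfold aug_M
  rw [Submodule.mem_sup]
  constructor
  · rintro ⟨y, ⟨p, rfl⟩, z, ⟨p', rfl⟩, rfl⟩
    exact ⟨p, p', by simp⟩
  · rintro ⟨p, p', rfl⟩
    exact ⟨p - actFun S p, ⟨p, by simp⟩, p' - actFun U p', ⟨p', by simp⟩, rfl⟩

private theorem aug_sub_actFun_mem (S U : G) (hgen : Subgroup.closure {S, U} = ⊤) (g : G)
    (v : X → ℂ) : v - actFun g v ∈ aug_M S U := by
  have hg : g ∈ Subgroup.closure ({S, U} : Set G) := by rw [hgen]; trivial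
  revert v
  induction hg using Subgroup.closure_induction with
  | mem x hx =>
    intro v
    rw [aug_mem_M_iff]
    rcases hx with rfl | hx
    · exact ⟨v, 0, by simp⟩
    · rw [Set.mem_singleton_iff] at hx
      subst hx
      exact ⟨0, v, by simp⟩
  | one =>
    intro v
    rw [actFun_one, sub_self]
    exact Submodule.zero_mem _
  | mul x y _ _ hx hy =>
    intro v
    have : v - actFun (x * y) v = (actFun y v - actFun x (actFun y v)) + (v - actFun y v) := by
      rw [actFun_mul]; abel
    rw [this]
    exact Submodule.add_mem _ (hx _) (hy _)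
  | inv x _ hx =>
    intro v
    have h1 : actFun x (actFun x⁻¹ v) = v := by
      rw [← actFun_mul, mul_inv_cancel, actFun_one]
    have : v - actFun x⁻¹ v = -(actFun x⁻¹ v - actFun x (actFun x⁻¹ v)) := by
      rw [h1]; abel
    rw [this]
    exact Submodule.neg_mem _ (hx _)

private theorem aug_single_sub_mem [DecidableEq X] [MulAction.IsPretransitive G X] (S U : G)
    (hgen : Subgroup.closure {S, U} = ⊤) (x y : X) :
    (Pi.single y (1 : ℂ) - Pi.single x (1 : ℂ) : X → ℂ) ∈ aug_M S U := by
  obtain ⟨g, hg⟩ := MulAction.exists_smul_eq G x y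
  have h1 : actFun g (Pi.single x (1 : ℂ) : X → ℂ) = Pi.single y (1 : ℂ) := by
    funext z
    rw [actFun_apply, Pi.single_apply, Pi.single_apply]
    have : g⁻¹ • z = x ↔ z = y := by
      rw [inv_smul_eq_iff, hg]
    simp only [this]
  have h2 := aug_sub_actFun_mem S U hgen g (Pi.single x (1 : ℂ) : X → ℂ)
  rw [h1] at h2
  have : (Pi.single y (1 : ℂ) - Pi.single x (1 : ℂ) : X → ℂ) =
      -(Pi.single x (1 : ℂ) - Pi.single y (1 : ℂ)) := by abel
  rw [this]
  exact Submodule.neg_mem _ h2

/-- Every function of total sum zero is of the form `(1 - S) p + (1 - U) p'`. -/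
theorem exists_aug_decomp [Fintype X] [MulAction.IsPretransitive G X] (S U : G)
    (hgen : Subgroup.closure {S, U} = ⊤) (u : X → ℂ) (hu : ∑ x, u x = 0) :
    ∃ p p' : X → ℂ, u = (p - actFun S p) + (p' - actFun U p') := by
  classical
  rw [← aug_mem_M_iff]
  rcases isEmpty_or_nonempty X with hX | ⟨⟨x₀⟩⟩
  · have : u = 0 := by
      funext x
      exact (hX.false x).elim
    rw [this]
    exact Submodule.zero_mem _
  · have key : u = ∑ x, u x • (Pi.single x (1 : ℂ) - Pi.single x₀ (1 : ℂ) : X → ℂ) := by
      have h1 : ∑ x, u x • (Pi.single x (1 : ℂ) - Pi.single x₀ (1 : ℂ) : X → ℂ) =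
          ∑ x, u x • (Pi.single x (1 : ℂ) : X → ℂ) -
            (∑ x, u x) • (Pi.single x₀ (1 : ℂ) : X → ℂ) := by
        rw [Finset.sum_smul, ← Finset.sum_sub_distrib]
        refine Finset.sum_congr rfl fun x _ => ?_
        rw [smul_sub]
      rw [h1, hu, zero_smul, sub_zero]
      funext z
      rw [Finset.sum_apply]
      simp [Pi.single_apply]
    rw [key]
    refine Submodule.sum_mem _ fun x _ => Submodule.smul_mem _ _ ?_
    exact aug_single_sub_mem S U hgen x₀ x

end

end Fermat.Agent.S21
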