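import Mathlib
import Fermat.Agent.S21.Aug

/-!
# S21 / KDim: the dimension of `KSpace S T`
-/

set_option autoImplicit false

namespace Fermat.Agent.S21

open Complex CongruenceSubgroup Filter Topology ModularCurve ModularCurve.Period
open UpperHalfPlane hiding I
open scoped MatrixGroups ModularForm Manifold Real

section

variable {G X : Type*} [Group G] [MulAction G X] [Fintype X]

/-- The linear map whose kernel is `KSpace S T`. -/
private noncomputable def kDim_Lam (S T : G) :
    ((X → ℂ) × (X → ℂ)) →ₗ[ℂ]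
      ((MulAction.orbitRel.Quotient (Subgroup.zpowers S) X → ℂ) ×
        (MulAction.orbitRel.Quotient (Subgroup.zpowers T) X → ℂ) ×
        (MulAction.orbitRel.Quotient (Subgroup.zpowers (S * T)) X → ℂ)) :=
  LinearMap.prod ((orbSum S).comp (LinearMap.fst ℂ _ _))
    (LinearMap.prod ((orbSum T).comp (LinearMap.snd ℂ _ _))
      ((orbSum (S * T)).comp
        (LinearMap.fst ℂ _ _ + (actFun S).comp (LinearMap.snd ℂ _ _))))

private theorem kDim_Lam_apply (S T : G) (p : (X → ℂ) × (X → ℂ)) :
    kDim_Lam S T p = (orbSum S p.1, orbSum T p.2, orbSum (S * T) (p.1 + actFun S p.2)) := rfl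

private theorem kDim_ker_Lam (S T : G) :
    LinearMap.ker (kDim_Lam (X := X) S T) = KSpace S T := by
  ext p
  rw [LinearMap.mem_ker, mem_KSpace, kDim_Lam_apply, Prod.ext_iff, Prod.ext_iff]
  rfl

/-- The linear form `(α, β, γ) ↦ ∑ α + ∑ β - ∑ γ`. -/
private noncomputable def kDim_ell (A B C : Type*) [Fintype A] [Fintype B] [Fintype C] :
    ((A → ℂ) × (B → ℂ) × (C → ℂ)) →ₗ[ℂ] ℂ where
  toFun q := ∑ i, q.1 i + ∑ i, q.2.1 i - ∑ i, q.2.2 i
  map_add' p q := by
    simp only [Prod.fst_add, Prod.snd_add, Pi.add_apply, Finset.sum_add_distrib]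
    ring
  map_smul' c q := by
    simp only [Prod.smul_fst, Prod.smul_snd, Pi.smul_apply, smul_eq_mul, ← Finset.mul_sum,
      RingHom.id_apply]
    ring

private theorem kDim_ell_apply (A B C : Type*) [Fintype A] [Fintype B] [Fintype C]
    (q : (A → ℂ) × (B → ℂ) × (C → ℂ)) :
    kDim_ell A B C q = ∑ i, q.1 i + ∑ i, q.2.1 i - ∑ i, q.2.2 i := rfl

private theorem kDim_ker_le_range [MulAction.IsPretransitive G X] (S T : G)
    (hgen : Subgroup.closure {S, T} = ⊤)
    [Fintype (MulAction.orbitRel.Quotient (Subgroup.zpowers S) X)]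
    [Fintype (MulAction.orbitRel.Quotient (Subgroup.zpowers T) X)]
    [Fintype (MulAction.orbitRel.Quotient (Subgroup.zpowers (S * T)) X)] :
    LinearMap.ker (kDim_ell (MulAction.orbitRel.Quotient (Subgroup.zpowers S) X)
        (MulAction.orbitRel.Quotient (Subgroup.zpowers T) X)
        (MulAction.orbitRel.Quotient (Subgroup.zpowers (S * T)) X))
      ≤ LinearMap.range (kDim_Lam (X := X) S T) := by
  rintro ⟨α, β, γ⟩ hq
  rw [LinearMap.mem_ker, kDim_ell_apply] at hq
  simp only at hq
  obtain ⟨a₀, ha₀⟩ := orbSum_surjective (X := X) S α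
  obtain ⟨t₀, ht₀⟩ := orbSum_surjective (X := X) T β
  obtain ⟨u, hu⟩ := orbSum_surjective (X := X) (S * T)
    (γ - orbSum (S * T) (a₀ + actFun S t₀))
  -- generation by `S` and `S * T`
  have hgen' : Subgroup.closure {S, S * T} = ⊤ := by
    rw [eq_top_iff, ← hgen, Subgroup.closure_le]
    have hS : S ∈ Subgroup.closure ({S, S * T} : Set G) :=
      Subgroup.subset_closure (by simp)
    have hU : S * T ∈ Subgroup.closure ({S, S * T} : Set G) :=
      Subgroup.subset_closure (by simp)
    have hT : S⁻¹ * (S * T) ∈ Subgroup.closure ({S, S * T} : Set G) :=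
      Subgroup.mul_mem _ (Subgroup.inv_mem _ hS) hU
    rw [inv_mul_cancel_left] at hT
    intro g hg
    rcases hg with rfl | hg
    · exact hS
    · rw [Set.mem_singleton_iff] at hg
      rw [hg]
      exact hT
  -- total sum of `u` vanishes
  have hsum : ∑ x, u x = 0 := by
    rw [← sum_orbSum (S * T) u, hu]
    simp only [Pi.sub_apply, Finset.sum_sub_distrib]
    rw [sum_orbSum (S * T) (a₀ + actFun S t₀)]
    simp only [Pi.add_apply, Finset.sum_add_distrib]
    rw [sum_actFun, ← sum_orbSum S a₀, ← sum_orbSum T t₀, ha₀, ht₀]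
    linear_combination -hq
  obtain ⟨p, p', hpp⟩ := exists_aug_decomp S (S * T) hgen' u hsum
  refine ⟨(a₀ + (p - actFun S p), t₀), ?_⟩
  rw [kDim_Lam_apply]
  simp only
  refine Prod.ext ?_ (Prod.ext ?_ ?_)
  · simp only
    rw [map_add, orbSum_sub_actFun, add_zero, ha₀]
  · simp only
    exact ht₀
  · simp only
    have h1 : a₀ + (p - actFun S p) + actFun S t₀
        = (a₀ + actFun S t₀) + (u - (p' - actFun (S * T) p')) := by
      rw [hpp]; abel
    rw [h1, map_add, map_sub, orbSum_sub_actFun, sub_zero, hu]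
    abel

/-- `dim K ≤ 2 |X| + 1 - (number of orbits of S, of T and of S * T)`. -/
theorem finrank_KSpace_le [MulAction.IsPretransitive G X] (S T : G)
    (hgen : Subgroup.closure {S, T} = ⊤) :
    Module.finrank ℂ (KSpace (X := X) S T)
        + Nat.card (MulAction.orbitRel.Quotient (Subgroup.zpowers S) X)
        + Nat.card (MulAction.orbitRel.Quotient (Subgroup.zpowers T) X)
        + Nat.card (MulAction.orbitRel.Quotient (Subgroup.zpowers (S * T)) X)
      ≤ 2 * Nat.card X + 1 := by
  classical
  have : Finite (MulAction.orbitRel.Quotient (Subgroup.zpowers S) X) := Quotient.finite _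
  have : Finite (MulAction.orbitRel.Quotient (Subgroup.zpowers T) X) := Quotient.finite _
  have : Finite (MulAction.orbitRel.Quotient (Subgroup.zpowers (S * T)) X) := Quotient.finite _
  have : Fintype (MulAction.orbitRel.Quotient (Subgroup.zpowers S) X) := Fintype.ofFinite _
  have : Fintype (MulAction.orbitRel.Quotient (Subgroup.zpowers T) X) := Fintype.ofFinite _
  have : Fintype (MulAction.orbitRel.Quotient (Subgroup.zpowers (S * T)) X) :=
    Fintype.ofFinite _
  have h1 := LinearMap.finrank_range_add_finrank_ker (kDim_Lam (X := X) S T)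
  rw [kDim_ker_Lam] at h1
  have h2 := LinearMap.finrank_range_add_finrank_ker
    (kDim_ell (MulAction.orbitRel.Quotient (Subgroup.zpowers S) X)
        (MulAction.orbitRel.Quotient (Subgroup.zpowers T) X)
        (MulAction.orbitRel.Quotient (Subgroup.zpowers (S * T)) X))
  have h3 := Submodule.finrank_mono (kDim_ker_le_range (X := X) S T hgen)
  have h4 : Module.finrank ℂ (LinearMap.range
      (kDim_ell (MulAction.orbitRel.Quotient (Subgroup.zpowers S) X)
        (MulAction.orbitRel.Quotient (Subgroup.zpowers T) X)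
        (MulAction.orbitRel.Quotient (Subgroup.zpowers (S * T)) X))) ≤ 1 := by
    have := Submodule.finrank_le (LinearMap.range
      (kDim_ell (MulAction.orbitRel.Quotient (Subgroup.zpowers S) X)
        (MulAction.orbitRel.Quotient (Subgroup.zpowers T) X)
        (MulAction.orbitRel.Quotient (Subgroup.zpowers (S * T)) X)))
    simpa using this
  rw [Module.finrank_prod, Module.finrank_fintype_fun_eq_card] at h1
  rw [Module.finrank_prod, Module.finrank_prod, Module.finrank_fintype_fun_eq_card,
    Module.finrank_fintype_fun_eq_card, Module.finrank_fintype_fun_eq_card] at h2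
  rw [Nat.card_eq_fintype_card, Nat.card_eq_fintype_card, Nat.card_eq_fintype_card,
    Nat.card_eq_fintype_card]
  omega

end

end Fermat.Agent.S21
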