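import Mathlib
import Fermat.Agent.S21.Defs

/-!
# S21 / TrivAct: powers of `S`, `S * T`, `T` acting trivially on `SL₂(ℤ)/Γ₀(N)`
-/

set_option autoImplicit false

namespace Fermat.Agent.S21

open Complex CongruenceSubgroup Filter Topology ModularCurve ModularCurve.Period
open UpperHalfPlane hiding I
open scoped MatrixGroups ModularForm Manifold Real

variable (N : ℕ)

private theorem trivAct_S_sq : (ModularGroup.S ^ 2 : SL(2, ℤ)) = -1 := by
  apply Subtype.ext
  simp only [Matrix.SpecialLinearGroup.coe_pow, ModularGroup.coe_S,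
    Matrix.SpecialLinearGroup.coe_neg, Matrix.SpecialLinearGroup.coe_one]
  ext i j
  fin_cases i <;> fin_cases j <;>
    simp [pow_succ, Matrix.mul_apply, Fin.sum_univ_two]

private theorem trivAct_ST_cube :
    ((ModularGroup.S * ModularGroup.T) ^ 3 : SL(2, ℤ)) = -1 := by
  apply Subtype.ext
  simp only [Matrix.SpecialLinearGroup.coe_pow, Matrix.SpecialLinearGroup.coe_mul,
    ModularGroup.coe_S, ModularGroup.coe_T,
    Matrix.SpecialLinearGroup.coe_neg, Matrix.SpecialLinearGroup.coe_one]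
  ext i j
  fin_cases i <;> fin_cases j <;>
    simp [pow_succ, Matrix.mul_apply, Fin.sum_univ_two]

private theorem trivAct_neg_one_smul (x : Cos N) : (-1 : SL(2, ℤ)) • x = x := by
  induction x using QuotientGroup.induction_on with
  | H h =>
    change (((-1 : SL(2, ℤ)) * h : SL(2, ℤ)) : Cos N) = (h : Cos N)
    rw [QuotientGroup.eq]
    have h1 : ((-1 : SL(2, ℤ)) * h)⁻¹ * h = -1 := by
      have h2 : (-1 : SL(2, ℤ)) * h = h * (-1) := by
        ext i j
        simp
      have h3 : (-1 : SL(2, ℤ)) * (-1) = 1 := by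
        ext i j
        simp
      rw [h2, mul_inv_rev, mul_assoc, inv_mul_cancel, mul_one]
      exact inv_eq_of_mul_eq_one_left h3
    rw [h1, Gamma0_mem]
    simp

private theorem trivAct_Gamma_le_Gamma0 : CongruenceSubgroup.Gamma N ≤ Gamma0 N := by
  intro γ hγ
  rw [Gamma_mem] at hγ
  rw [Gamma0_mem]
  exact hγ.2.2.1

theorem S_sq_smul (x : Cos N) : (ModularGroup.S ^ 2) • x = x := by
  rw [trivAct_S_sq]
  exact trivAct_neg_one_smul N x

theorem S_sq_trace :
    (((ModularGroup.S ^ 2 : SL(2, ℤ)) : SL(2, ℤ)) : Matrix (Fin 2) (Fin 2) ℤ).trace ^ 2 = 4 := by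
  rw [trivAct_S_sq, Matrix.trace_fin_two]
  simp

theorem ST_cube_smul (x : Cos N) : ((ModularGroup.S * ModularGroup.T) ^ 3) • x = x := by
  rw [trivAct_ST_cube]
  exact trivAct_neg_one_smul N x

theorem ST_cube_trace :
    ((((ModularGroup.S * ModularGroup.T) ^ 3 : SL(2, ℤ)) : SL(2, ℤ)) :
      Matrix (Fin 2) (Fin 2) ℤ).trace ^ 2 = 4 := by
  rw [trivAct_ST_cube, Matrix.trace_fin_two]
  simp

theorem T_pow_smul (x : Cos N) : (ModularGroup.T ^ N) • x = x := by
  induction x using QuotientGroup.induction_on with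
  | H h =>
    change (((ModularGroup.T ^ N) * h : SL(2, ℤ)) : Cos N) = (h : Cos N)
    rw [eq_comm, QuotientGroup.eq]
    apply trivAct_Gamma_le_Gamma0
    have hT : (ModularGroup.T ^ N : SL(2, ℤ)) ∈ CongruenceSubgroup.Gamma N := by
      have := ModularGroup_T_pow_mem_Gamma (N : ℤ) (N : ℤ) dvd_rfl
      simpa using this
    have := (Gamma_normal N).conj_mem _ hT h⁻¹
    simpa [mul_assoc] using this

theorem T_pow_trace (n : ℕ) :
    (((ModularGroup.T ^ n : SL(2, ℤ)) : SL(2, ℤ)) : Matrix (Fin 2) (Fin 2) ℤ).trace ^ 2 = 4 := by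
  have h := ModularGroup.coe_T_zpow (n : ℤ)
  rw [zpow_natCast] at h
  rw [h, Matrix.trace_fin_two]
  simp

end Fermat.Agent.S21
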