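import Mathlib
import Fermat.Agent.S21.KDim
import Fermat.Agent.S21.Cocycle
import Fermat.Agent.S21.TrivAct

/-!
# S21 / DimBound: `dim parabolicHoms ≤ |X| + 2 - (orbits of S, T, S * T)`
-/

set_option autoImplicit false

namespace Fermat.Agent.S21

open Complex CongruenceSubgroup Filter Topology ModularCurve ModularCurve.Period
open UpperHalfPlane hiding I
open scoped MatrixGroups ModularForm Manifold Real

section DimBoundAux

attribute [local instance] cosFintype

variable (N : ℕ)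

/-- The cocycle `c_ψ + ∂ v`. -/
private noncomputable def dimBound_c (ψ : Additive (Gamma0 N) →+ ℂ) (v : Cos N → ℂ)
    (g : SL(2, ℤ)) : Cos N → ℂ :=
  cocyc N ψ g + (v - actFun g v)

private theorem dimBound_c_mul (ψ : Additive (Gamma0 N) →+ ℂ) (v : Cos N → ℂ)
    (g h : SL(2, ℤ)) :
    dimBound_c N ψ v (g * h) = dimBound_c N ψ v g + actFun g (dimBound_c N ψ v h) := by
  unfold dimBound_c
  rw [cocyc_mul, actFun_mul, map_add, map_sub]
  abel

private theorem dimBound_c_add (ψ ψ' : Additive (Gamma0 N) →+ ℂ) (v v' : Cos N → ℂ)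
    (g : SL(2, ℤ)) :
    dimBound_c N (ψ + ψ') (v + v') g = dimBound_c N ψ v g + dimBound_c N ψ' v' g := by
  unfold dimBound_c
  rw [cocyc_add, map_add]
  abel

private theorem dimBound_c_smul (a : ℂ) (ψ : Additive (Gamma0 N) →+ ℂ) (v : Cos N → ℂ)
    (g : SL(2, ℤ)) :
    dimBound_c N (a • ψ) (a • v) g = a • dimBound_c N ψ v g := by
  unfold dimBound_c
  rw [cocyc_smul, map_smul, smul_add, smul_sub]

private theorem dimBound_orbSum_c [NeZero N] (ψ : Additive (Gamma0 N) →+ ℂ)
    (hψ : ψ ∈ parabolicHoms ℂ (Gamma0 N) ℂ) (v : Cos N → ℂ) (g : SL(2, ℤ)) (n : ℕ)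
    (hn : 0 < n) (hfix : ∀ x : Cos N, (g ^ n) • x = x)
    (htr : (((g ^ n : SL(2, ℤ)) : SL(2, ℤ)) : Matrix (Fin 2) (Fin 2) ℤ).trace ^ 2 = 4) :
    orbSum g (dimBound_c N ψ v g) = 0 := by
  unfold dimBound_c
  rw [map_add, orbSum_cocyc_eq_zero ψ hψ g n hn hfix htr, orbSum_sub_actFun, add_zero]

/-- The linear map `(ψ, v) ↦ (c S, c T)`. -/
private noncomputable def dimBound_Phi [NeZero N] :
    (parabolicHoms ℂ (Gamma0 N) ℂ × (Cos N → ℂ)) →ₗ[ℂ] (Cos N → ℂ) × (Cos N → ℂ) where
  toFun p := (dimBound_c N p.1.1 p.2 ModularGroup.S, dimBound_c N p.1.1 p.2 ModularGroup.T)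
  map_add' p q := by
    simp only [Prod.fst_add, Prod.snd_add, Submodule.coe_add, dimBound_c_add, Prod.mk_add_mk]
  map_smul' a p := by
    simp only [Prod.smul_fst, Prod.smul_snd, Submodule.coe_smul, dimBound_c_smul,
      Prod.smul_mk, RingHom.id_apply]

private theorem dimBound_Phi_apply [NeZero N]
    (p : parabolicHoms ℂ (Gamma0 N) ℂ × (Cos N → ℂ)) :
    dimBound_Phi N p
      = (dimBound_c N p.1.1 p.2 ModularGroup.S, dimBound_c N p.1.1 p.2 ModularGroup.T) := rfl

private theorem dimBound_range_le [NeZero N] :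
    LinearMap.range (dimBound_Phi N) ≤ KSpace (X := Cos N) ModularGroup.S ModularGroup.T := by
  rintro _ ⟨p, rfl⟩
  rw [dimBound_Phi_apply, mem_KSpace]
  refine ⟨?_, ?_, ?_⟩
  · exact dimBound_orbSum_c N p.1.1 p.1.2 p.2 _ 2 (by norm_num) (S_sq_smul N) S_sq_trace
  · exact dimBound_orbSum_c N p.1.1 p.1.2 p.2 _ N (Nat.pos_of_ne_zero (NeZero.ne N))
      (T_pow_smul N) (T_pow_trace N)
  · show orbSum (ModularGroup.S * ModularGroup.T)
      (dimBound_c N p.1.1 p.2 ModularGroup.S
        + actFun ModularGroup.S (dimBound_c N p.1.1 p.2 ModularGroup.T)) = 0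
    rw [← dimBound_c_mul]
    exact dimBound_orbSum_c N p.1.1 p.1.2 p.2 _ 3 (by norm_num) (ST_cube_smul N) ST_cube_trace

private theorem dimBound_ker [NeZero N] (p : parabolicHoms ℂ (Gamma0 N) ℂ × (Cos N → ℂ))
    (hp : dimBound_Phi N p = 0) :
    p.1 = 0 ∧ ∀ x y : Cos N, p.2 x = p.2 y := by
  rw [dimBound_Phi_apply, Prod.mk_eq_zero] at hp
  have hc : ∀ g : SL(2, ℤ), dimBound_c N p.1.1 p.2 g = 0 :=
    cocycle_eq_zero (dimBound_c N p.1.1 p.2) (dimBound_c_mul N p.1.1 p.2) hp.1 hp.2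
  have h1 : (p.1 : Additive (Gamma0 N) →+ ℂ) = 0 := by
    refine eq_zero_of_cocyc_eq_coboundary p.1.1 p.2 fun g => ?_
    have := hc g
    unfold dimBound_c at this
    rw [add_eq_zero_iff_eq_neg] at this
    rw [this]
    abel
  refine ⟨Subtype.ext h1, ?_⟩
  refine const_of_actFun_eq (G := SL(2, ℤ)) p.2 fun g => ?_
  have := hc g
  unfold dimBound_c at this
  rw [h1] at this
  have h0 : cocyc N (0 : Additive (Gamma0 N) →+ ℂ) g = 0 := by
    funext x; simp [cocyc_apply]
  rw [h0, zero_add, sub_eq_zero] at this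
  exact this.symm

private theorem dimBound_finite [NeZero N] : Module.Finite ℂ (parabolicHoms ℂ (Gamma0 N) ℂ) := by
  refine Module.Finite.of_injective
    ((dimBound_Phi N).comp (LinearMap.inl ℂ (parabolicHoms ℂ (Gamma0 N) ℂ) (Cos N → ℂ))) ?_
  rw [← LinearMap.ker_eq_bot, LinearMap.ker_eq_bot']
  intro ψ hψ
  exact (dimBound_ker N (ψ, 0) hψ).1

private theorem dimBound_ker_le [NeZero N] :
    LinearMap.ker (dimBound_Phi N)
      ≤ Submodule.span ℂ {((0, fun _ => 1) : parabolicHoms ℂ (Gamma0 N) ℂ × (Cos N → ℂ))} := by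
  intro p hp
  rw [LinearMap.mem_ker] at hp
  obtain ⟨h1, h2⟩ := dimBound_ker N p hp
  rw [Submodule.mem_span_singleton]
  refine ⟨p.2 ((1 : SL(2, ℤ)) : Cos N), ?_⟩
  refine Prod.ext ?_ ?_
  · simp [h1]
  · funext x
    simp [h2 x ((1 : SL(2, ℤ)) : Cos N)]

/-- The parabolic homomorphisms `Γ₀(N) → ℂ` form a finite-dimensional space, of dimension at
most `ψ + 2 - o_S - o_T - o_{ST}`. -/
theorem finrank_parabolicHoms_le (N : ℕ) [NeZero N] :
    Module.Finite ℂ (parabolicHoms ℂ (Gamma0 N) ℂ) ∧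
      Module.finrank ℂ (parabolicHoms ℂ (Gamma0 N) ℂ)
          + Nat.card (MulAction.orbitRel.Quotient (Subgroup.zpowers ModularGroup.S) (Cos N))
          + Nat.card (MulAction.orbitRel.Quotient (Subgroup.zpowers ModularGroup.T) (Cos N))
          + Nat.card (MulAction.orbitRel.Quotient
              (Subgroup.zpowers (ModularGroup.S * ModularGroup.T)) (Cos N))
        ≤ Nat.card (Cos N) + 2 := by
  have hfin : Module.Finite ℂ (parabolicHoms ℂ (Gamma0 N) ℂ) := dimBound_finite N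
  refine ⟨hfin, ?_⟩
  have hK : Module.finrank ℂ (KSpace (X := Cos N) ModularGroup.S ModularGroup.T)
          + Nat.card (MulAction.orbitRel.Quotient (Subgroup.zpowers ModularGroup.S) (Cos N))
          + Nat.card (MulAction.orbitRel.Quotient (Subgroup.zpowers ModularGroup.T) (Cos N))
          + Nat.card (MulAction.orbitRel.Quotient
              (Subgroup.zpowers (ModularGroup.S * ModularGroup.T)) (Cos N))
        ≤ 2 * Nat.card (Cos N) + 1 :=
    finrank_KSpace_le (X := Cos N) ModularGroup.S ModularGroup.T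
      SpecialLinearGroup.SL2Z_generators
  have hrn := LinearMap.finrank_range_add_finrank_ker (dimBound_Phi N)
  have hr : Module.finrank ℂ (LinearMap.range (dimBound_Phi N))
      ≤ Module.finrank ℂ (KSpace (X := Cos N) ModularGroup.S ModularGroup.T) :=
    Submodule.finrank_mono (dimBound_range_le N)
  have hk : Module.finrank ℂ (LinearMap.ker (dimBound_Phi N)) ≤ 1 :=
    (Submodule.finrank_mono (dimBound_ker_le N)).trans
      ((finrank_span_le_card _).trans (by simp))
  rw [Module.finrank_prod, Module.finrank_fintype_fun_eq_card, ← Nat.card_eq_fintype_card] at hrn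
  omega

end DimBoundAux

end Fermat.Agent.S21
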