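import Mathlib
import Fermat.Agent.S21.Defs

/-!
# S21 / Calc: calculus on the upper half plane and basic facts on `CuspHolo`
-/

set_option autoImplicit false

namespace Fermat.Agent.S21

open Complex CongruenceSubgroup Filter Topology ModularCurve ModularCurve.Period
open UpperHalfPlane hiding I
open scoped MatrixGroups ModularForm Manifold Real

/-- A function on `ℍ` with vanishing complex derivative is constant. -/
theorem eq_const_of_hasDerivAt_zero {F : ℍ → ℂ}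
    (h : ∀ τ : ℍ, HasDerivAt (F ∘ ofComplex) 0 (τ : ℂ)) : ∃ c : ℂ, ∀ τ : ℍ, F τ = c := by
  have hopen : IsOpen {z : ℂ | 0 < z.im} := isOpen_upperHalfPlaneSet
  have hconn : IsPreconnected {z : ℂ | 0 < z.im} :=
    (convex_halfSpace_im_gt 0).isPreconnected
  have hd : ∀ z ∈ {z : ℂ | 0 < z.im}, HasDerivAt (F ∘ ofComplex) 0 z := by
    intro z hz
    exact h ⟨z, hz⟩
  have hdiff : DifferentiableOn ℂ (F ∘ ofComplex) {z : ℂ | 0 < z.im} :=
    fun z hz => (hd z hz).differentiableAt.differentiableWithinAt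
  have hderiv : Set.EqOn (deriv (F ∘ ofComplex)) 0 {z : ℂ | 0 < z.im} :=
    fun z hz => (hd z hz).deriv
  obtain ⟨a, ha⟩ := hopen.exists_is_const_of_deriv_eq_zero hconn hdiff hderiv
  refine ⟨a, fun τ => ?_⟩
  have := ha (τ : ℂ) τ.im_pos
  simpa [Function.comp_apply, ofComplex_apply] using this

/-- Chain rule for Möbius transformations: `(F ∘ γ)' (τ) = F'(γ τ) * (c τ + d)⁻²`. -/
theorem hasDerivAt_comp_smul {F : ℍ → ℂ} {f' : ℂ} (γ : SL(2, ℤ)) (τ : ℍ)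
    (h : HasDerivAt (F ∘ ofComplex) f' ((γ • τ : ℍ) : ℂ)) :
    HasDerivAt ((fun z : ℍ => F (γ • z)) ∘ ofComplex) (f' * (denom γ τ) ^ (-2 : ℤ)) (τ : ℂ) := by
  have hdet0 : ((γ : GL (Fin 2) ℝ) : Matrix (Fin 2) (Fin 2) ℝ).det = 1 :=
    (Matrix.SpecialLinearGroup.map (Int.castRingHom ℝ) γ).2
  have hdet : (0 : ℝ) < ((γ : GL (Fin 2) ℝ) : Matrix (Fin 2) (Fin 2) ℝ).det := by
    rw [hdet0]; exact one_pos
  have h1 : HasDerivAt (fun z : ℂ => ((((γ : GL (Fin 2) ℝ) • ofComplex z : ℍ)) : ℂ))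
      ((((γ : GL (Fin 2) ℝ) : Matrix (Fin 2) (Fin 2) ℝ).det : ℂ) / denom γ τ ^ 2) (τ : ℂ) :=
    (hasStrictDerivAt_smul hdet τ).hasDerivAt
  have hval : (fun z : ℂ => ((((γ : GL (Fin 2) ℝ) • ofComplex z : ℍ)) : ℂ)) (τ : ℂ)
      = ((γ • τ : ℍ) : ℂ) := by
    simp only [ofComplex_apply]
    rfl
  have h' : HasDerivAt (F ∘ ofComplex) f'
      ((fun z : ℂ => ((((γ : GL (Fin 2) ℝ) • ofComplex z : ℍ)) : ℂ)) (τ : ℂ)) := by
    rw [hval]; exact h
  have h2 := HasDerivAt.comp (τ : ℂ) h' h1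
  have hfun : ((fun z : ℍ => F (γ • z)) ∘ ofComplex)
      = (F ∘ ofComplex) ∘ (fun z : ℂ => ((((γ : GL (Fin 2) ℝ) • ofComplex z : ℍ)) : ℂ)) := by
    funext z
    simp only [Function.comp_apply, ofComplex_apply]
    rfl
  rw [hfun]
  have hd : f' * (denom γ τ) ^ (-2 : ℤ)
      = f' * ((((γ : GL (Fin 2) ℝ) : Matrix (Fin 2) (Fin 2) ℝ).det : ℂ) / denom γ τ ^ 2) := by
    rw [hdet0, zpow_neg, Complex.ofReal_one, one_div]
    norm_cast
  rw [hd]
  exact h2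

/-- `q_N` maps the upper half plane into the open unit disc. -/
theorem qN_mem_ball (N : ℕ) [NeZero N] (w : ℍ) : qN N (w : ℂ) ∈ Metric.ball (0 : ℂ) 1 := by
  have hN : (0 : ℝ) < (N : ℝ) := Nat.cast_pos.mpr (NeZero.pos N)
  rw [mem_ball_zero_iff]
  exact Function.Periodic.norm_qParam_lt_one hN w.im_pos

/-- `q_N w → 0` as `Im w → ∞`. -/
theorem tendsto_qN_atImInfty (N : ℕ) [NeZero N] :
    Tendsto (fun w : ℍ => qN N (w : ℂ)) atImInfty (𝓝 0) := by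
  have hN : (0 : ℝ) < (N : ℝ) := Nat.cast_pos.mpr (NeZero.pos N)
  exact UpperHalfPlane.qParam_tendsto_atImInfty hN

/-- Every point of the punctured open unit disc is `q_N w` for some `w ∈ ℍ`. -/
theorem exists_qN_eq (N : ℕ) [NeZero N] {q : ℂ} (hq : q ∈ Metric.ball (0 : ℂ) 1) (hq0 : q ≠ 0) :
    ∃ w : ℍ, qN N (w : ℂ) = q := by
  have hN : (0 : ℝ) < (N : ℝ) := Nat.cast_pos.mpr (NeZero.pos N)
  rw [mem_ball_zero_iff] at hq
  refine ⟨⟨Function.Periodic.invQParam (N : ℝ) q,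
    Function.Periodic.im_invQParam_pos_of_norm_lt_one hN hq hq0⟩, ?_⟩
  exact Function.Periodic.qParam_right_inv hN.ne' hq0

/-- If `F = Ψ ∘ q_N` on `ℍ` and `Ψ` is differentiable at `q_N τ` with derivative `d`... more
precisely: transfer of a derivative from `z ↦ Ψ (q_N z)` to `F ∘ ofComplex`. -/
theorem hasDerivAt_comp_ofComplex_of_eq {N : ℕ} {F : ℍ → ℂ} {Ψ : ℂ → ℂ}
    (hF : ∀ w : ℍ, F w = Ψ (qN N (w : ℂ))) {d : ℂ} (τ : ℍ)
    (h : HasDerivAt (fun z : ℂ => Ψ (qN N z)) d (τ : ℂ)) :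
    HasDerivAt (F ∘ ofComplex) d (τ : ℂ) := by
  refine h.congr_of_eventuallyEq ?_
  filter_upwards [isOpen_upperHalfPlaneSet.mem_nhds τ.im_pos] with z hz
  have hz' : 0 < z.im := hz
  simp only [Function.comp_apply]
  rw [hF, ofComplex_apply_of_im_pos hz']

/-- A `CuspHolo` function is holomorphic on `ℍ`. -/
theorem CuspHolo.differentiableAt {N : ℕ} [NeZero N] {H : ℍ → ℂ} (hH : CuspHolo N H) (τ : ℍ) :
    DifferentiableAt ℂ (H ∘ ofComplex) (τ : ℂ) := by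
  obtain ⟨Ψ, hΨ, hHΨ⟩ := hH 1
  have hF : ∀ w : ℍ, H w = Ψ (qN N (w : ℂ)) := by
    intro w
    have := hHΨ w
    rwa [one_smul] at this
  have hΨd : DifferentiableAt ℂ Ψ (qN N (τ : ℂ)) :=
    hΨ.differentiableAt (Metric.isOpen_ball.mem_nhds (qN_mem_ball N τ))
  have hq : DifferentiableAt ℂ (fun z : ℂ => qN N z) (τ : ℂ) :=
    (Function.Periodic.differentiable_qParam (h := (N : ℝ))).differentiableAt
  have hcomp : DifferentiableAt ℂ (fun z : ℂ => Ψ (qN N z)) (τ : ℂ) :=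
    DifferentiableAt.comp (τ : ℂ) hΨd hq
  exact (hasDerivAt_comp_ofComplex_of_eq hF τ hcomp.hasDerivAt).differentiableAt

/-- A `CuspHolo` function has a limit at every cusp. -/
theorem CuspHolo.tendsto {N : ℕ} [NeZero N] {H : ℍ → ℂ} (hH : CuspHolo N H) (δ : SL(2, ℤ)) :
    ∃ L : ℂ, Tendsto (fun w : ℍ => H (δ • w)) atImInfty (𝓝 L) := by
  obtain ⟨Ψ, hΨ, hHΨ⟩ := hH δ
  refine ⟨Ψ 0, ?_⟩
  have hcont : ContinuousAt Ψ 0 :=
    (hΨ.differentiableAt (Metric.isOpen_ball.mem_nhds (Metric.mem_ball_self one_pos))).continuousAt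
  have ht : Tendsto (fun w : ℍ => Ψ (qN N (w : ℂ))) atImInfty (𝓝 (Ψ 0)) :=
    hcont.tendsto.comp (tendsto_qN_atImInfty N)
  exact ht.congr (fun w => (hHΨ w).symm)

end Fermat.Agent.S21
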