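import Mathlib
import Fermat.Agent.S21.Defs

/-!
# S21 / PrimDisc: primitive of a periodic holomorphic function vanishing at `i∞`, through
the disc parameter `q_h`
-/

set_option autoImplicit false

namespace Fermat.Agent.S21

open Complex CongruenceSubgroup Filter Topology ModularCurve ModularCurve.Period
open UpperHalfPlane hiding I
open scoped MatrixGroups ModularForm Manifold Real

private theorem primDisc_hasDerivAt_qParam (h : ℝ) (z : ℂ) :
    HasDerivAt (Function.Periodic.qParam h)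
      (Function.Periodic.qParam h z * (2 * π * I / (h : ℂ))) z := by
  have h1 : HasDerivAt (fun z : ℂ => 2 * π * I * z / (h : ℂ)) (2 * π * I / (h : ℂ)) z := by
    simpa using ((hasDerivAt_id z).const_mul (2 * π * I)).div_const (h : ℂ)
  exact h1.cexp

/-- Let `g : ℍ → ℂ` be holomorphic, `h`-periodic and zero at `i∞`.  Then there is `Ψ`
holomorphic on the open unit disc with `Ψ 0 = 0` such that `z ↦ Ψ (q_h z)` is a primitive of `g`
on the upper half plane. -/
theorem exists_disc_prim {h : ℝ} (hh : 0 < h) {g : ℍ → ℂ}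
    (hper : Function.Periodic (g ∘ ofComplex) h) (hholo : MDifferentiable 𝓘(ℂ) 𝓘(ℂ) g)
    (hzero : IsZeroAtImInfty g) :
    ∃ Ψ : ℂ → ℂ, DifferentiableOn ℂ Ψ (Metric.ball 0 1) ∧ Ψ 0 = 0 ∧
      ∀ τ : ℍ, HasDerivAt (fun z : ℂ => Ψ (Function.Periodic.qParam h z)) (g τ) (τ : ℂ) := by
  set φ : ℂ → ℂ := UpperHalfPlane.cuspFunction h g with hφdef
  have hφd : DifferentiableOn ℂ φ (Metric.ball 0 1) :=
    UpperHalfPlane.differentiableOn_cuspFunction_ball hh hper hholo hzero.isBoundedAtImInfty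
  have hφ0 : φ 0 = 0 := UpperHalfPlane.IsZeroAtImInfty.cuspFunction_apply_zero hzero hh
  have hφq : ∀ τ : ℍ, φ (Function.Periodic.qParam h (τ : ℂ)) = g τ := fun τ =>
    UpperHalfPlane.eq_cuspFunction τ hh.ne' hper
  have hball : Metric.ball (0 : ℂ) 1 ∈ 𝓝 (0 : ℂ) := Metric.ball_mem_nhds 0 one_pos
  have hd : DifferentiableOn ℂ (dslope φ 0) (Metric.ball 0 1) :=
    (differentiableOn_dslope hball).mpr hφd
  have hd' : DifferentiableOn ℂ (fun q => (h : ℂ) * dslope φ 0 q / (2 * π * I))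
      (Metric.ball 0 1) := (hd.const_mul _).div_const _
  obtain ⟨Ψ, hΨ0, hΨ⟩ := (hd'.isExactOn_ball).with_val_at 0 0
  refine ⟨Ψ, fun q hq => (hΨ q hq).differentiableAt.differentiableWithinAt, hΨ0, fun τ => ?_⟩
  have hq : Function.Periodic.qParam h (τ : ℂ) ∈ Metric.ball (0 : ℂ) 1 := by
    simpa using Function.Periodic.norm_qParam_lt_one hh τ.im_pos
  have h1 := hΨ _ hq
  have h2 := h1.comp (τ : ℂ) (primDisc_hasDerivAt_qParam h (τ : ℂ))
  have hval : (h : ℂ) * dslope φ 0 (Function.Periodic.qParam h (τ : ℂ)) / (2 * π * I) *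
      (Function.Periodic.qParam h (τ : ℂ) * (2 * π * I / (h : ℂ))) = g τ := by
    have h3 := sub_smul_dslope φ 0 (Function.Periodic.qParam h (τ : ℂ))
    simp only [sub_zero, smul_eq_mul, hφ0] at h3
    have h4 : (2 * (π : ℂ) * I) ≠ 0 := Complex.two_pi_I_ne_zero
    have h5 : (h : ℂ) ≠ 0 := by exact_mod_cast hh.ne'
    rw [← hφq τ, ← h3]
    field_simp
  rw [← hval]
  exact h2

end Fermat.Agent.S21
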