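import Mathlib
import Fermat.Agent.S21.Defs

/-!
# S21 / SlashCusp: the translates `f ∣[2] δ` of a weight 2 cusp form on `Γ₀(N)`
-/

set_option autoImplicit false

namespace Fermat.Agent.S21

open Complex CongruenceSubgroup Filter Topology ModularCurve ModularCurve.Period
open UpperHalfPlane hiding I
open scoped MatrixGroups ModularForm Manifold Real

variable {N : ℕ} [NeZero N] (f : CuspForm (Gamma0 N) 2) (δ : SL(2, ℤ))

theorem slash_two_apply (τ : ℍ) :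
    ((f : ℍ → ℂ) ∣[(2 : ℤ)] δ) τ = f (δ • τ) * (denom δ τ) ^ (-2 : ℤ) :=
  ModularForm.SL_slash_apply (f : ℍ → ℂ) δ τ

/-- `f ∣[2] γ = f` for `γ ∈ Γ₀(N)`. -/
theorem slash_Gamma0 {γ : SL(2, ℤ)} (hγ : γ ∈ Gamma0 N) : (f : ℍ → ℂ) ∣[(2 : ℤ)] γ = f :=
  SlashInvariantFormClass.slash_action_eq f _ (Subgroup.mem_map_of_mem _ hγ)

private theorem slashCusp_Gamma_le_Gamma0 (N : ℕ) : CongruenceSubgroup.Gamma N ≤ Gamma0 N := by
  intro γ hγ
  rw [Gamma_mem] at hγ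
  rw [Gamma0_mem]
  exact hγ.2.2.1

private theorem slashCusp_denom_T_zpow (n : ℤ) (τ : ℍ) :
    denom ((ModularGroup.T ^ n : SL(2, ℤ)) : GL (Fin 2) ℝ) τ = 1 := by
  rw [ModularGroup.denom_apply, ModularGroup.coe_T_zpow]
  simp

private theorem slashCusp_periodic_vadd (τ : ℍ) :
    ((f : ℍ → ℂ) ∣[(2 : ℤ)] δ) (((N : ℤ) : ℝ) +ᵥ τ) = ((f : ℍ → ℂ) ∣[(2 : ℤ)] δ) τ := by
  have hmem : δ * ModularGroup.T ^ (N : ℤ) * δ⁻¹ ∈ Gamma0 N := by
    apply slashCusp_Gamma_le_Gamma0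
    apply (Gamma_normal N).conj_mem
    have := ModularGroup_T_pow_mem_Gamma (N : ℤ) (N : ℤ) (dvd_refl _)
    simpa using this
  have h1 : (f : ℍ → ℂ) ∣[(2 : ℤ)] (δ * ModularGroup.T ^ (N : ℤ) * δ⁻¹) = f :=
    slash_Gamma0 f hmem
  have h2 : ((f : ℍ → ℂ) ∣[(2 : ℤ)] δ) ∣[(2 : ℤ)] (ModularGroup.T ^ (N : ℤ))
      = (f : ℍ → ℂ) ∣[(2 : ℤ)] δ := by
    rw [← SlashAction.slash_mul]
    conv_rhs => rw [← h1]
    rw [← SlashAction.slash_mul]
    congr 1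
    group
  have h3 := congrFun h2 τ
  rw [ModularForm.SL_slash_apply, slashCusp_denom_T_zpow, one_zpow, mul_one,
    UpperHalfPlane.modular_T_zpow_smul] at h3
  exact h3

/-- `f ∣[2] δ` is `N`-periodic. -/
theorem slash_periodic :
    Function.Periodic (((f : ℍ → ℂ) ∣[(2 : ℤ)] δ) ∘ ofComplex) (N : ℝ) := by
  intro z
  simp only [Function.comp_apply]
  by_cases hz : 0 < z.im
  · have hz' : 0 < (z + ((N : ℝ) : ℂ)).im := by simpa using hz
    rw [ofComplex_apply_of_im_pos hz, ofComplex_apply_of_im_pos hz']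
    have h := slashCusp_periodic_vadd f δ ⟨z, hz⟩
    rw [← h]
    refine congrArg _ (UpperHalfPlane.ext ?_)
    simp [UpperHalfPlane.coe_vadd, add_comm]
  · have hz0 : z.im ≤ 0 := not_lt.mp hz
    have hz' : (z + ((N : ℝ) : ℂ)).im ≤ 0 := by simpa using hz0
    rw [ofComplex_apply_of_im_nonpos hz0, ofComplex_apply_of_im_nonpos hz']

theorem slash_mdifferentiable : MDifferentiable 𝓘(ℂ) 𝓘(ℂ) ((f : ℍ → ℂ) ∣[(2 : ℤ)] δ) :=
  (CuspFormClass.holo f).slash 2 _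

theorem slash_isZeroAtImInfty : IsZeroAtImInfty ((f : ℍ → ℂ) ∣[(2 : ℤ)] δ) :=
  CuspFormClass.zero_at_infty_slash f δ

end Fermat.Agent.S21
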