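import Mathlib
import Fermat.Agent.S21.Calc
import Fermat.Agent.S21.PrimDisc
import Fermat.Agent.S21.SlashCusp

/-!
# S21 / Prim: existence of the primitive of a weight 2 cusp form, with expansions at all cusps
-/

set_option autoImplicit false

namespace Fermat.Agent.S21

open Complex CongruenceSubgroup Filter Topology ModularCurve ModularCurve.Period
open UpperHalfPlane hiding I
open scoped MatrixGroups ModularForm Manifold Real

/-- For every `δ`, the translate `f ∣[2] δ` has a primitive of the form `Ψ ∘ q_N` with `Ψ`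
holomorphic on the unit disc and `Ψ 0 = 0`. -/
private theorem prim_aux_disc (N : ℕ) [NeZero N] (f : CuspForm (Gamma0 N) 2) (δ : SL(2, ℤ)) :
    ∃ Ψ : ℂ → ℂ, DifferentiableOn ℂ Ψ (Metric.ball 0 1) ∧ Ψ 0 = 0 ∧
      ∀ τ : ℍ, HasDerivAt (fun z : ℂ => Ψ (qN N z))
        (((f : ℍ → ℂ) ∣[(2 : ℤ)] δ) τ) (τ : ℂ) := by
  have hN : (0 : ℝ) < (N : ℝ) := by
    exact_mod_cast Nat.pos_of_ne_zero (NeZero.ne N)
  exact exists_disc_prim hN (slash_periodic f δ) (slash_mdifferentiable f δ)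
    (slash_isZeroAtImInfty f δ)

/-- Every weight 2 cusp form `f` on `Γ₀(N)` has a primitive `F` on `ℍ` which tends to `0` at
`i∞` and is holomorphic in `q_N` at every cusp. -/
theorem exists_prim (N : ℕ) [NeZero N] (f : CuspForm (Gamma0 N) 2) :
    ∃ F : ℍ → ℂ, (∀ τ : ℍ, HasDerivAt (F ∘ ofComplex) (f τ) (τ : ℂ)) ∧
      Tendsto F atImInfty (𝓝 0) ∧ CuspHolo N F := by
  obtain ⟨Ψ₁, hΨ₁d, hΨ₁0, hΨ₁⟩ := prim_aux_disc N f 1
  have hone : ((f : ℍ → ℂ) ∣[(2 : ℤ)] (1 : SL(2, ℤ))) = (f : ℍ → ℂ) := SlashAction.slash_one _ _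
  -- the primitive
  have ha : ∀ τ : ℍ,
      HasDerivAt ((fun w : ℍ => Ψ₁ (qN N (w : ℂ))) ∘ ofComplex) (f τ) (τ : ℂ) := by
    intro τ
    have h := hΨ₁ τ
    rw [hone] at h
    exact hasDerivAt_comp_ofComplex_of_eq (N := N) (F := fun w : ℍ => Ψ₁ (qN N (w : ℂ)))
      (Ψ := Ψ₁) (fun _ => rfl) τ h
  refine ⟨fun w : ℍ => Ψ₁ (qN N (w : ℂ)), ha, ?_, ?_⟩
  · -- limit at `i∞`
    have h0mem : (0 : ℂ) ∈ Metric.ball (0 : ℂ) 1 := Metric.mem_ball_self one_pos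
    have hcont : ContinuousAt Ψ₁ 0 :=
      ((hΨ₁d 0 h0mem).differentiableAt (Metric.isOpen_ball.mem_nhds h0mem)).continuousAt
    have ht : Tendsto Ψ₁ (𝓝 0) (𝓝 0) := by
      have := hcont.tendsto
      rwa [hΨ₁0] at this
    exact ht.comp (tendsto_qN_atImInfty N)
  · -- expansions at all cusps
    intro δ
    obtain ⟨Ψ, hΨd, -, hΨ⟩ := prim_aux_disc N f δ
    have h1 : ∀ τ : ℍ, HasDerivAt
        ((fun z : ℍ => (fun w : ℍ => Ψ₁ (qN N (w : ℂ))) (δ • z)) ∘ ofComplex)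
        (((f : ℍ → ℂ) ∣[(2 : ℤ)] δ) τ) (τ : ℂ) := by
      intro τ
      rw [slash_two_apply]
      exact hasDerivAt_comp_smul δ τ (ha (δ • τ))
    have h2 : ∀ τ : ℍ, HasDerivAt ((fun w : ℍ => Ψ (qN N (w : ℂ))) ∘ ofComplex)
        (((f : ℍ → ℂ) ∣[(2 : ℤ)] δ) τ) (τ : ℂ) := fun τ =>
      hasDerivAt_comp_ofComplex_of_eq (N := N) (F := fun w : ℍ => Ψ (qN N (w : ℂ)))
        (Ψ := Ψ) (fun _ => rfl) τ (hΨ τ)
    have h3 : ∀ τ : ℍ, HasDerivAt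
        ((fun w : ℍ => Ψ₁ (qN N ((δ • w : ℍ) : ℂ)) - Ψ (qN N (w : ℂ))) ∘ ofComplex)
        0 (τ : ℂ) := by
      intro τ
      have h := (h1 τ).sub (h2 τ)
      rw [sub_self] at h
      exact h
    obtain ⟨L, hL⟩ := eq_const_of_hasDerivAt_zero h3
    refine ⟨fun q => Ψ q + L, hΨd.add_const L, fun w => ?_⟩
    show Ψ₁ (qN N ((δ • w : ℍ) : ℂ)) = Ψ (qN N (w : ℂ)) + L
    have h : Ψ₁ (qN N ((δ • w : ℍ) : ℂ)) - Ψ (qN N (w : ℂ)) = L := hL w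
    rw [← h]
    ring

end Fermat.Agent.S21
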