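import Mathlib
import Fermat.Agent.S21.Prim

/-!
# S21 / PrimDef: the chosen primitive `prim N f` of a weight 2 cusp form
-/

set_option autoImplicit false

namespace Fermat.Agent.S21

open Complex CongruenceSubgroup Filter Topology ModularCurve ModularCurve.Period
open UpperHalfPlane hiding I
open scoped MatrixGroups ModularForm Manifold Real

/-- The primitive of `f` vanishing at `i∞`. -/
noncomputable def prim (N : ℕ) [NeZero N] (f : CuspForm (Gamma0 N) 2) : ℍ → ℂ :=
  Classical.choose (exists_prim N f)

variable {N : ℕ} [NeZero N] (f : CuspForm (Gamma0 N) 2)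

theorem prim_hasDerivAt (τ : ℍ) : HasDerivAt (prim N f ∘ ofComplex) (f τ) (τ : ℂ) :=
  (Classical.choose_spec (exists_prim N f)).1 τ

theorem prim_tendsto : Tendsto (prim N f) atImInfty (𝓝 0) :=
  (Classical.choose_spec (exists_prim N f)).2.1

theorem prim_cuspHolo : CuspHolo N (prim N f) :=
  (Classical.choose_spec (exists_prim N f)).2.2

end Fermat.Agent.S21
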