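import Mathlib
import Fermat.Agent.S21.PrimDef

/-!
# S21 / Equivariant: equivariance and uniqueness of primitives, linearity of `prim`
-/

set_option autoImplicit false

namespace Fermat.Agent.S21

open Complex CongruenceSubgroup Filter Topology ModularCurve ModularCurve.Period
open UpperHalfPlane hiding I
open scoped MatrixGroups ModularForm Manifold Real

variable {N : ℕ} [NeZero N]

/-- A primitive of a weight 2 cusp form on `Γ₀(N)` is an equivariant primitive. -/
theorem isEquivariantPrimitive_of_hasDerivAt (f : CuspForm (Gamma0 N) 2) {F : ℍ → ℂ}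
    (hF : ∀ τ : ℍ, HasDerivAt (F ∘ ofComplex) (f τ) (τ : ℂ)) :
    IsEquivariantPrimitive (Gamma0 N) F := by
  intro γ
  have key : ∀ τ : ℍ, HasDerivAt ((fun z : ℍ => F ((γ : SL(2, ℤ)) • z) - F z) ∘ ofComplex) 0
      (τ : ℂ) := by
    intro τ
    have h1 := hasDerivAt_comp_smul (F := F) (γ : SL(2, ℤ)) τ (hF ((γ : SL(2, ℤ)) • τ))
    have h2 : f ((γ : SL(2, ℤ)) • τ) * (denom (γ : SL(2, ℤ)) τ) ^ (-2 : ℤ) = f τ := by
      rw [← slash_two_apply f (γ : SL(2, ℤ)) τ, slash_Gamma0 f γ.2]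
    rw [h2] at h1
    have h3 := h1.sub (hF τ)
    rw [sub_self] at h3
    exact h3
  obtain ⟨c, hc⟩ := eq_const_of_hasDerivAt_zero key
  exact ⟨c, hc⟩

/-- Two primitives of the same function which both tend to `0` at `i∞` agree. -/
theorem eq_of_hasDerivAt_of_tendsto {f : ℍ → ℂ} {F₁ F₂ : ℍ → ℂ}
    (h₁ : ∀ τ : ℍ, HasDerivAt (F₁ ∘ ofComplex) (f τ) (τ : ℂ))
    (h₂ : ∀ τ : ℍ, HasDerivAt (F₂ ∘ ofComplex) (f τ) (τ : ℂ))
    (t₁ : Tendsto F₁ atImInfty (𝓝 0)) (t₂ : Tendsto F₂ atImInfty (𝓝 0)) : F₁ = F₂ := by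
  have key : ∀ τ : ℍ, HasDerivAt ((fun z : ℍ => F₁ z - F₂ z) ∘ ofComplex) 0 (τ : ℂ) := by
    intro τ
    have h3 := (h₁ τ).sub (h₂ τ)
    rw [sub_self] at h3
    exact h3
  obtain ⟨c, hc⟩ := eq_const_of_hasDerivAt_zero key
  have t3 : Tendsto (fun z : ℍ => F₁ z - F₂ z) atImInfty (𝓝 (0 - 0)) := t₁.sub t₂
  have t4 : Tendsto (fun z : ℍ => F₁ z - F₂ z) atImInfty (𝓝 c) := by
    have : (fun z : ℍ => F₁ z - F₂ z) = fun _ => c := funext hc
    rw [this]
    exact tendsto_const_nhds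
  have hc0 : c = 0 := by
    have := tendsto_nhds_unique t4 t3
    simpa using this
  funext z
  have := hc z
  rw [hc0] at this
  exact sub_eq_zero.mp this

theorem hasEquivariantPrimitive_prim (f : CuspForm (Gamma0 N) 2) :
    HasEquivariantPrimitive N f (prim N f) :=
  ⟨prim_hasDerivAt f, prim_tendsto f,
    isEquivariantPrimitive_of_hasDerivAt f (prim_hasDerivAt f),
    fun δ => CuspHolo.tendsto (prim_cuspHolo f) δ⟩

theorem prim_add (f g : CuspForm (Gamma0 N) 2) : prim N (f + g) = prim N f + prim N g := by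
  refine eq_of_hasDerivAt_of_tendsto (f := fun τ => (f + g) τ) (prim_hasDerivAt (f + g)) ?_
    (prim_tendsto (f + g)) ?_
  · intro τ
    have h := (prim_hasDerivAt f τ).add (prim_hasDerivAt g τ)
    have e : (f + g) τ = f τ + g τ := rfl
    rw [e]
    exact h
  · have h := (prim_tendsto f).add (prim_tendsto g)
    rw [add_zero] at h
    exact h

theorem prim_smul (a : ℂ) (f : CuspForm (Gamma0 N) 2) : prim N (a • f) = a • prim N f := by
  refine eq_of_hasDerivAt_of_tendsto (f := fun τ => (a • f) τ) (prim_hasDerivAt (a • f)) ?_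
    (prim_tendsto (a • f)) ?_
  · intro τ
    have h := (prim_hasDerivAt f τ).const_smul a
    have e : (a • f) τ = a • f τ := rfl
    rw [e]
    exact h
  · have h := (prim_tendsto f).const_smul a
    rw [smul_zero] at h
    exact h

end Fermat.Agent.S21
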