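import Mathlib
import Fermat.Agent.S21.Equivariant

/-!
# S21 / PeriodLinear: the period map in terms of `prim`, its linearity, and the formula for
`periodHomPair`
-/

set_option autoImplicit false

namespace Fermat.Agent.S21

open Complex CongruenceSubgroup Filter Topology ModularCurve ModularCurve.Period
open UpperHalfPlane hiding I
open scoped MatrixGroups ModularForm Manifold Real

variable {N : ℕ} [NeZero N]

/-- The period map of the Prelude, computed with our primitive (at any base point `z`). -/
theorem periodMap_apply (f : CuspForm (Gamma0 N) 2) (γ : Gamma0 N) (z : ℍ) :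
    periodMap N f (Additive.ofMul γ) = prim N f ((γ : SL(2, ℤ)) • z) - prim N f z := by
  obtain ⟨F₀, h₀, heq⟩ := periodMap_def N f (hasEquivariantPrimitive_prim f)
  have hF : F₀ = prim N f :=
    eq_of_hasDerivAt_of_tendsto (f := fun τ => f τ) h₀.1 (prim_hasDerivAt f) h₀.2.1
      (prim_tendsto f)
  subst hF
  rw [heq, IsEquivariantPrimitive.periodHom_apply]
  exact (h₀.2.2.1.sub_eq_period γ z).symm

theorem periodMap_add (f g : CuspForm (Gamma0 N) 2) :
    periodMap N (f + g) = periodMap N f + periodMap N g := by
  refine AddMonoidHom.ext fun γ => ?_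
  have key : ∀ γ' : Gamma0 N, periodMap N (f + g) (Additive.ofMul γ') =
      (periodMap N f + periodMap N g) (Additive.ofMul γ') := by
    intro γ'
    rw [AddMonoidHom.add_apply, periodMap_apply (f + g) γ' UpperHalfPlane.I,
      periodMap_apply f γ' UpperHalfPlane.I, periodMap_apply g γ' UpperHalfPlane.I, prim_add,
      Pi.add_apply, Pi.add_apply]
    ring
  exact key (Additive.toMul γ)

theorem periodMap_smul (a : ℂ) (f : CuspForm (Gamma0 N) 2) :
    periodMap N (a • f) = a • periodMap N f := by
  refine AddMonoidHom.ext fun γ => ?_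
  have key : ∀ γ' : Gamma0 N, periodMap N (a • f) (Additive.ofMul γ') =
      (a • periodMap N f) (Additive.ofMul γ') := by
    intro γ'
    rw [AddMonoidHom.smul_apply, periodMap_apply (a • f) γ' UpperHalfPlane.I,
      periodMap_apply f γ' UpperHalfPlane.I, prim_smul,
      Pi.smul_apply, Pi.smul_apply, smul_eq_mul, smul_eq_mul, smul_eq_mul]
    ring
  exact key (Additive.toMul γ)

variable (N) in
theorem existsPeriodMapLinear : ExistsPeriodMapLinear N :=
  ⟨{ toFun := periodMap N
     map_add' := periodMap_add
     map_smul' := periodMap_smul }, fun _ => rfl⟩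

/-- `periodHomPair N (f, g) = (1 + ι) (P f) + (1 - ι) (P g)`. -/
theorem periodHomPair_eq (f g : CuspForm (Gamma0 N) 2) :
    periodHomPair N (f, g) =
      (periodMap N f + charInvolution N ℂ ℂ (periodMap N f)) +
        (periodMap N g - charInvolution N ℂ ℂ (periodMap N g)) := by
  obtain ⟨pml, hpml, heq⟩ := periodHomPair_def N (existsPeriodMapLinear N)
  rw [heq, LinearMap.coprod_apply, LinearMap.comp_apply, LinearMap.comp_apply,
    LinearMap.add_apply, LinearMap.sub_apply, LinearMap.id_apply, LinearMap.id_apply,
    hpml, hpml]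

private theorem periodLinear_prim_sub (f g : CuspForm (Gamma0 N) 2) :
    prim N (f - g) = prim N f - prim N g := by
  have h : f - g = f + (-1 : ℂ) • g := by
    rw [neg_one_smul, sub_eq_add_neg]
  rw [h, prim_add, prim_smul, neg_one_smul, sub_eq_add_neg]

/-- Explicit formula: `periodHomPair N (f, g) γ = P(f + g)(γ) + P(f - g)(j γ j⁻¹)`, where the two
periods may be computed at arbitrary base points `z`, `z'`. -/
theorem periodHomPair_apply (f g : CuspForm (Gamma0 N) 2) (γ : Gamma0 N) (z z' : ℍ) :
    periodHomPair N (f, g) (Additive.ofMul γ) =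
      (prim N (f + g) ((γ : SL(2, ℤ)) • z) - prim N (f + g) z) +
        (prim N (f - g) (jConjSL (γ : SL(2, ℤ)) • z') - prim N (f - g) z') := by
  have h1 := periodMap_apply f γ z
  have h2 := periodMap_apply g γ z
  have h3 := periodMap_apply f (jConjGamma0 N γ) z'
  have h4 := periodMap_apply g (jConjGamma0 N γ) z'
  rw [jConjGamma0_coe] at h3 h4
  rw [periodHomPair_eq, AddMonoidHom.add_apply, AddMonoidHom.add_apply, AddMonoidHom.sub_apply,
    charInvolution_apply, charInvolution_apply, toMul_ofMul, h1, h2, h3, h4, prim_add,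
    periodLinear_prim_sub, Pi.add_apply, Pi.add_apply, Pi.sub_apply, Pi.sub_apply]
  ring

end Fermat.Agent.S21
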