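import Mathlib
import Fermat.Agent.S21.Calc

/-!
# S21 / CuspHoloOps: algebraic operations preserving `CuspHolo`
-/

set_option autoImplicit false

namespace Fermat.Agent.S21

open Complex CongruenceSubgroup Filter Topology ModularCurve ModularCurve.Period
open UpperHalfPlane hiding I
open scoped MatrixGroups ModularForm Manifold Real

variable {N : ℕ} {H H' : ℍ → ℂ}

theorem CuspHolo.add (hH : CuspHolo N H) (hH' : CuspHolo N H') :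
    CuspHolo N (fun z => H z + H' z) := by
  intro δ
  obtain ⟨Ψ, hΨ, hΨeq⟩ := hH δ
  obtain ⟨Ψ', hΨ', hΨ'eq⟩ := hH' δ
  refine ⟨fun q => Ψ q + Ψ' q, hΨ.add hΨ', fun w => ?_⟩
  show H (δ • w) + H' (δ • w) = Ψ (qN N (w : ℂ)) + Ψ' (qN N (w : ℂ))
  rw [hΨeq w, hΨ'eq w]

theorem CuspHolo.sub (hH : CuspHolo N H) (hH' : CuspHolo N H') :
    CuspHolo N (fun z => H z - H' z) := by
  intro δ
  obtain ⟨Ψ, hΨ, hΨeq⟩ := hH δ
  obtain ⟨Ψ', hΨ', hΨ'eq⟩ := hH' δ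
  refine ⟨fun q => Ψ q - Ψ' q, hΨ.sub hΨ', fun w => ?_⟩
  show H (δ • w) - H' (δ • w) = Ψ (qN N (w : ℂ)) - Ψ' (qN N (w : ℂ))
  rw [hΨeq w, hΨ'eq w]

theorem CuspHolo.const_mul (a : ℂ) (hH : CuspHolo N H) : CuspHolo N (fun z => a * H z) := by
  intro δ
  obtain ⟨Ψ, hΨ, hΨeq⟩ := hH δ
  refine ⟨fun q => a * Ψ q, hΨ.const_mul a, fun w => ?_⟩
  show a * H (δ • w) = a * Ψ (qN N (w : ℂ))
  rw [hΨeq w]

theorem CuspHolo.cexp (hH : CuspHolo N H) : CuspHolo N (fun z => Complex.exp (H z)) := by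
  intro δ
  obtain ⟨Ψ, hΨ, hΨeq⟩ := hH δ
  refine ⟨fun q => Complex.exp (Ψ q), hΨ.cexp, fun w => ?_⟩
  show Complex.exp (H (δ • w)) = Complex.exp (Ψ (qN N (w : ℂ)))
  rw [hΨeq w]

end Fermat.Agent.S21
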