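import Mathlib
import Fermat.Agent.S21.Calc

/-!
# S21 / MaxPrinciple: a `CuspHolo` function whose absolute value is `Γ₀(N)`-invariant is constant
-/

set_option autoImplicit false

namespace Fermat.Agent.S21

open Complex CongruenceSubgroup Filter Topology ModularCurve ModularCurve.Period
open UpperHalfPlane hiding I
open scoped MatrixGroups ModularForm Manifold Real

/-- On the standard fundamental domain, `‖q_N w‖ ≤ exp (-π / N)`. -/
private theorem maxPrinciple_norm_qN_le (N : ℕ) [NeZero N] {w : ℍ} (hw : w ∈ ModularGroup.fd) :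
    ‖qN N (w : ℂ)‖ ≤ Real.exp (-π / N) := by
  have h3 := ModularGroup.three_le_four_mul_im_sq_of_mem_fd hw
  have him : (1 : ℝ) / 2 ≤ w.im := by
    by_contra hlt
    rw [not_le] at hlt
    have hpos := w.im_pos
    nlinarith
  have hN : (0 : ℝ) < N := Nat.cast_pos.mpr (NeZero.pos N)
  have hcoe : ((w : ℂ)).im = w.im := rfl
  rw [qN, Function.Periodic.norm_qParam, Real.exp_le_exp, hcoe,
    div_le_div_iff_of_pos_right hN]
  nlinarith [Real.pi_pos]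

/-- Maximum modulus principle on the compactified modular curve. -/
theorem cuspHolo_const_of_norm_invariant {N : ℕ} [NeZero N] {E : ℍ → ℂ} (hE : CuspHolo N E)
    (hinv : ∀ γ ∈ Gamma0 N, ∀ z : ℍ, ‖E (γ • z)‖ = ‖E z‖) : ∃ c : ℂ, ∀ z : ℍ, E z = c := by
  classical
  choose Ψ hΨd hΨ using hE
  let _ : Fintype (Cos N) := cosFintype N
  have hN : (0 : ℝ) < N := Nat.cast_pos.mpr (NeZero.pos N)
  set ρ : ℝ := Real.exp (-π / N) with hρ
  have hρ0 : 0 < ρ := Real.exp_pos _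
  have hρ1 : ρ < 1 := by
    rw [hρ, Real.exp_lt_one_iff]
    exact div_neg_of_neg_of_pos (neg_lt_zero.mpr Real.pi_pos) hN
  have hsub : Metric.closedBall (0 : ℂ) ρ ⊆ Metric.ball 0 1 := Metric.closedBall_subset_ball hρ1
  -- the maximum of each `‖Ψ δ‖` on the closed ball of radius `ρ`
  have hmax : ∀ δ : SL(2, ℤ), ∃ q ∈ Metric.closedBall (0 : ℂ) ρ,
      ∀ q' ∈ Metric.closedBall (0 : ℂ) ρ, ‖Ψ δ q'‖ ≤ ‖Ψ δ q‖ := by
    intro δ
    have hc : ContinuousOn (fun q => ‖Ψ δ q‖) (Metric.closedBall 0 ρ) :=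
      ((hΨd δ).continuousOn.mono hsub).norm
    obtain ⟨q, hq, hqmax⟩ :=
      (isCompact_closedBall (0 : ℂ) ρ).exists_isMaxOn ⟨0, by simp [hρ0.le]⟩ hc
    exact ⟨q, hq, fun q' hq' => hqmax hq'⟩
  choose qm hqm hqmax using hmax
  -- the maximum over the finitely many coset representatives
  obtain ⟨x₀, -, hx₀⟩ := Finset.exists_max_image (Finset.univ : Finset (Cos N))
    (fun x => ‖Ψ (sec N x)⁻¹ (qm (sec N x)⁻¹)‖)
    ⟨(QuotientGroup.mk 1 : Cos N), Finset.mem_univ _⟩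
  obtain ⟨δ₀, hδ₀⟩ : ∃ δ₀ : SL(2, ℤ), δ₀ = (sec N x₀)⁻¹ := ⟨_, rfl⟩
  obtain ⟨M, hM⟩ : ∃ M : ℝ, M = ‖Ψ δ₀ (qm δ₀)‖ := ⟨_, rfl⟩
  -- `‖E‖ ≤ M` everywhere
  have hbound : ∀ z : ℍ, ‖E z‖ ≤ M := by
    intro z
    obtain ⟨g, hg⟩ := ModularGroup.exists_smul_mem_fd z
    obtain ⟨x, hx⟩ : ∃ x : Cos N, x = (QuotientGroup.mk g : Cos N) := ⟨_, rfl⟩
    have hγ : g⁻¹ * sec N x ∈ Gamma0 N := by
      have h1 : ((g : SL(2, ℤ)) : Cos N) = ((sec N x : SL(2, ℤ)) : Cos N) := by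
        rw [mk_sec, hx]
      exact QuotientGroup.eq.mp h1
    have hz : (g⁻¹ * sec N x) • ((sec N x)⁻¹ • (g • z)) = z := by
      rw [← mul_smul, ← mul_smul]
      simp
    have h1 : ‖E z‖ = ‖E ((sec N x)⁻¹ • (g • z))‖ := by
      rw [← hinv _ hγ ((sec N x)⁻¹ • (g • z)), hz]
    have h2 : qN N ((g • z : ℍ) : ℂ) ∈ Metric.closedBall (0 : ℂ) ρ := by
      rw [mem_closedBall_zero_iff]
      exact maxPrinciple_norm_qN_le N hg
    calc ‖E z‖ = ‖Ψ (sec N x)⁻¹ (qN N ((g • z : ℍ) : ℂ))‖ := by rw [h1, hΨ]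
      _ ≤ ‖Ψ (sec N x)⁻¹ (qm (sec N x)⁻¹)‖ := hqmax _ _ h2
      _ ≤ M := by rw [hM, hδ₀]; exact hx₀ x (Finset.mem_univ _)
  -- `‖Ψ δ₀‖ ≤ M` on the punctured disc
  have hpunct : ∀ q ∈ Metric.ball (0 : ℂ) 1, q ≠ 0 → ‖Ψ δ₀ q‖ ≤ M := by
    intro q hq hq0
    obtain ⟨w, rfl⟩ := exists_qN_eq N hq hq0
    rw [← hΨ]
    exact hbound _
  -- and at the centre, by continuity
  have hzero : ‖Ψ δ₀ 0‖ ≤ M := by
    have hcont : ContinuousAt (Ψ δ₀) 0 :=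
      ((hΨd δ₀).differentiableAt (Metric.isOpen_ball.mem_nhds (by simp))).continuousAt
    have ht : Tendsto (fun q => ‖Ψ δ₀ q‖) (𝓝[≠] (0 : ℂ)) (𝓝 ‖Ψ δ₀ 0‖) :=
      (hcont.norm.tendsto).mono_left nhdsWithin_le_nhds
    refine le_of_tendsto ht ?_
    have hball : ∀ᶠ q in 𝓝[≠] (0 : ℂ), q ∈ Metric.ball (0 : ℂ) 1 :=
      nhdsWithin_le_nhds (Metric.isOpen_ball.mem_nhds (by simp))
    filter_upwards [hball, self_mem_nhdsWithin] with q hq hq0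
    exact hpunct q hq hq0
  have hall : ∀ q ∈ Metric.ball (0 : ℂ) 1, ‖Ψ δ₀ q‖ ≤ M := by
    intro q hq
    by_cases hq0 : q = 0
    · rw [hq0]; exact hzero
    · exact hpunct q hq hq0
  -- maximum modulus principle
  have hismax : IsMaxOn (norm ∘ Ψ δ₀) (Metric.ball (0 : ℂ) 1) (qm δ₀) := by
    intro q hq
    simpa [hM] using hall q hq
  have heq := Complex.eqOn_of_isPreconnected_of_isMaxOn_norm
    (convex_ball (0 : ℂ) 1).isPreconnected Metric.isOpen_ball (hΨd δ₀) (hsub (hqm δ₀)) hismax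
  refine ⟨Ψ δ₀ (qm δ₀), fun z => ?_⟩
  have hz : δ₀ • (δ₀⁻¹ • z) = z := smul_inv_smul δ₀ z
  rw [← hz, hΨ]
  exact heq (qN_mem_ball N _)

end Fermat.Agent.S21
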