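import Mathlib
import Fermat.Agent.S21.CuspHoloOps
import Fermat.Agent.S21.MaxPrinciple

/-!
# S21 / ReInvariant: a `CuspHolo` function with `Γ₀(N)`-invariant real part has derivative zero
-/

set_option autoImplicit false

namespace Fermat.Agent.S21

open Complex CongruenceSubgroup Filter Topology ModularCurve ModularCurve.Period
open UpperHalfPlane hiding I
open scoped MatrixGroups ModularForm Manifold Real

theorem deriv_eq_zero_of_re_invariant {N : ℕ} [NeZero N] {H : ℍ → ℂ} {h : ℍ → ℂ}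
    (hH : CuspHolo N H) (hd : ∀ τ : ℍ, HasDerivAt (H ∘ ofComplex) (h τ) (τ : ℂ))
    (hinv : ∀ γ ∈ Gamma0 N, ∀ z : ℍ, (H (γ • z)).re = (H z).re) : ∀ τ : ℍ, h τ = 0 := by
  intro τ
  -- `E = exp ∘ H` is `CuspHolo` with invariant norm, hence constant.
  have hE : CuspHolo N (fun z => Complex.exp (H z)) := hH.cexp
  have hEinv : ∀ γ ∈ Gamma0 N, ∀ z : ℍ,
      ‖(fun z => Complex.exp (H z)) (γ • z)‖ = ‖(fun z => Complex.exp (H z)) z‖ := by
    intro γ hγ z
    show ‖Complex.exp (H (γ • z))‖ = ‖Complex.exp (H z)‖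
    rw [Complex.norm_exp, Complex.norm_exp, hinv γ hγ z]
  obtain ⟨c, hc⟩ := cuspHolo_const_of_norm_invariant hE hEinv
  -- derivative of `exp ∘ (H ∘ ofComplex)` at `τ`, computed in two ways
  have h1 : HasDerivAt (fun z : ℂ => Complex.exp ((H ∘ ofComplex) z))
      (Complex.exp ((H ∘ ofComplex) (τ : ℂ)) * h τ) (τ : ℂ) := (hd τ).cexp
  have hfun : (fun z : ℂ => Complex.exp ((H ∘ ofComplex) z)) = fun _ : ℂ => c := by
    funext z
    exact hc (ofComplex z)
  rw [hfun] at h1
  have h2 : HasDerivAt (fun _ : ℂ => c) 0 (τ : ℂ) := hasDerivAt_const _ _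
  have h3 := h1.unique h2
  rcases mul_eq_zero.mp h3 with h4 | h4
  · exact absurd h4 (Complex.exp_ne_zero _)
  · exact h4

end Fermat.Agent.S21
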