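import Mathlib
import Fermat.Agent.S21.Calc

/-!
# S21 / Reflect: the reflection `z ↦ -conj z` and Schwarz reflection of `CuspHolo` functions
-/

set_option autoImplicit false

namespace Fermat.Agent.S21

open Complex CongruenceSubgroup Filter Topology ModularCurve ModularCurve.Period
open UpperHalfPlane hiding I
open scoped MatrixGroups ModularForm Manifold Real

theorem negConj_negConj (z : ℍ) : negConj (negConj z) = z := by
  apply UpperHalfPlane.ext
  simp

private theorem reflect_coe_smul (γ : SL(2, ℤ)) (τ : ℍ) :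
    ((γ • τ : ℍ) : ℂ) = (((γ 0 0 : ℤ) : ℂ) * (τ : ℂ) + ((γ 0 1 : ℤ) : ℂ)) /
      (((γ 1 0 : ℤ) : ℂ) * (τ : ℂ) + ((γ 1 1 : ℤ) : ℂ)) := by
  rw [coe_specialLinearGroup_apply]
  simp only [algebraMap_int_eq, eq_intCast, Complex.ofReal_intCast]

/-- `-conj (δ • w) = (j δ j⁻¹) • (-conj w)`. -/
theorem negConj_smul (δ : SL(2, ℤ)) (w : ℍ) : negConj (δ • w) = jConjSL δ • negConj w := by
  apply UpperHalfPlane.ext
  rw [coe_negConj, reflect_coe_smul, reflect_coe_smul, coe_negConj]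
  have e00 : ((jConjSL δ : SL(2, ℤ)) 0 0 : ℤ) = δ 0 0 := jConjMat_apply_zero_zero _
  have e01 : ((jConjSL δ : SL(2, ℤ)) 0 1 : ℤ) = -δ 0 1 := jConjMat_apply_zero_one _
  have e10 : ((jConjSL δ : SL(2, ℤ)) 1 0 : ℤ) = -δ 1 0 := jConjMat_apply_one_zero _
  have e11 : ((jConjSL δ : SL(2, ℤ)) 1 1 : ℤ) = δ 1 1 := jConjMat_apply_one_one _
  rw [e00, e01, e10, e11]
  rw [map_div₀, map_add, map_add, map_mul, map_mul, map_intCast, map_intCast,
    map_intCast, map_intCast]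
  push_cast
  rw [← neg_div]
  congr 1 <;> ring

theorem qN_negConj (N : ℕ) (w : ℍ) :
    qN N ((negConj w : ℍ) : ℂ) = (starRingEnd ℂ) (qN N (w : ℂ)) := by
  simp only [qN, Function.Periodic.qParam, coe_negConj]
  rw [← Complex.exp_conj]
  congr 1
  simp only [map_div₀, map_mul, Complex.conj_ofReal, Complex.conj_I, map_ofNat]
  ring

/-- Schwarz reflection preserves `CuspHolo`. -/
theorem CuspHolo.reflect {N : ℕ} {H : ℍ → ℂ} (hH : CuspHolo N H) :
    CuspHolo N (fun z : ℍ => (starRingEnd ℂ) (H (negConj z))) := by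
  intro δ
  obtain ⟨Ψ, hΨ, hΨw⟩ := hH (jConjSL δ)
  refine ⟨(starRingEnd ℂ) ∘ Ψ ∘ (starRingEnd ℂ), ?_, ?_⟩
  · intro q hq
    have hq' : (starRingEnd ℂ) q ∈ Metric.ball (0 : ℂ) 1 := by
      rw [mem_ball_zero_iff] at hq ⊢
      rwa [RCLike.norm_conj]
    have h1 : DifferentiableAt ℂ Ψ ((starRingEnd ℂ) q) :=
      (hΨ _ hq').differentiableAt (Metric.isOpen_ball.mem_nhds hq')
    have h2 := h1.conj_conj
    rw [Complex.conj_conj] at h2
    exact h2.differentiableWithinAt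
  · intro w
    show (starRingEnd ℂ) (H (negConj (δ • w))) = (starRingEnd ℂ) (Ψ ((starRingEnd ℂ) (qN N (w : ℂ))))
    rw [negConj_smul, hΨw, qN_negConj]

/-- Derivative of the Schwarz reflection. -/
theorem hasDerivAt_reflect {F : ℍ → ℂ} {f' : ℂ} (τ : ℍ)
    (h : HasDerivAt (F ∘ ofComplex) f' ((negConj τ : ℍ) : ℂ)) :
    HasDerivAt ((fun z : ℍ => (starRingEnd ℂ) (F (negConj z))) ∘ ofComplex)
      (-(starRingEnd ℂ) f') (τ : ℂ) := by
  rw [coe_negConj] at h
  -- `G₂ u = (F ∘ ofComplex) (-u)` has derivative `-f'` at `conj τ`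
  have h2 : HasDerivAt (fun u : ℂ => (F ∘ ofComplex) (-u)) (-f') ((starRingEnd ℂ) (τ : ℂ)) := by
    have hneg : HasDerivAt (fun u : ℂ => -u) (-1) ((starRingEnd ℂ) (τ : ℂ)) :=
      (hasDerivAt_id _).neg
    have := HasDerivAt.comp ((starRingEnd ℂ) (τ : ℂ)) h hneg
    simpa [Function.comp_def] using this
  have h3 := h2.conj_conj
  rw [Complex.conj_conj, map_neg] at h3
  refine h3.congr_of_eventuallyEq ?_
  have hopen : {z : ℂ | 0 < z.im} ∈ 𝓝 (τ : ℂ) :=
    isOpen_upperHalfPlaneSet.mem_nhds τ.im_pos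
  filter_upwards [hopen] with z hz
  have hz' : 0 < (-(starRingEnd ℂ) z).im := by simpa using hz
  show (starRingEnd ℂ) (F (negConj (ofComplex z))) =
    (starRingEnd ℂ) (F (ofComplex (-(starRingEnd ℂ) z)))
  congr 2
  apply UpperHalfPlane.ext
  rw [coe_negConj, ofComplex_apply_of_im_pos hz, ofComplex_apply_of_im_pos hz']

end Fermat.Agent.S21
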