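import Mathlib
import Fermat.Agent.S21.PeriodLinear
import Fermat.Agent.S21.Reflect
import Fermat.Agent.S21.ReInvariant

/-!
# S21 / Injective: injectivity of `periodHomPair`
-/

set_option autoImplicit false

namespace Fermat.Agent.S21

open Complex CongruenceSubgroup Filter Topology ModularCurve ModularCurve.Period
open UpperHalfPlane hiding I
open scoped MatrixGroups ModularForm Manifold Real

private theorem injective_aux {N : ℕ} [NeZero N] (f g : CuspForm (Gamma0 N) 2)
    (h0 : periodHomPair N (f, g) = 0) :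
    (∀ τ : ℍ, (f + g) τ = 0) ∧ (∀ τ : ℍ, (f - g) τ = 0) := by
  have hΦ₁c : CuspHolo N (prim N (f + g)) := prim_cuspHolo _
  have hH₂c : CuspHolo N (fun z : ℍ => (starRingEnd ℂ) (prim N (f - g) (negConj z))) :=
    (prim_cuspHolo (f - g)).reflect
  have hΦ₁d : ∀ τ : ℍ, HasDerivAt (prim N (f + g) ∘ ofComplex) ((f + g) τ) (τ : ℂ) :=
    prim_hasDerivAt _
  have hH₂d : ∀ τ : ℍ,
      HasDerivAt ((fun z : ℍ => (starRingEnd ℂ) (prim N (f - g) (negConj z))) ∘ ofComplex)
        (-(starRingEnd ℂ) ((f - g) (negConj τ))) (τ : ℂ) :=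
    fun τ => hasDerivAt_reflect τ (prim_hasDerivAt (f - g) (negConj τ))
  -- the key relation
  have key : ∀ γ ∈ Gamma0 N, ∀ z : ℍ,
      (prim N (f + g) (γ • z) - prim N (f + g) z) +
        (prim N (f - g) (negConj (γ • z)) - prim N (f - g) (negConj z)) = 0 := by
    intro γ hγ z
    have h1 := periodHomPair_apply f g ⟨γ, hγ⟩ z (negConj z)
    rw [h0] at h1
    simp only [AddMonoidHom.zero_apply] at h1
    rw [negConj_smul]
    exact h1.symm
  -- (i)
  have hi : ∀ τ : ℍ, (f + g) τ + -(starRingEnd ℂ) ((f - g) (negConj τ)) = 0 := by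
    refine deriv_eq_zero_of_re_invariant (N := N)
      (H := fun z : ℍ => prim N (f + g) z + (starRingEnd ℂ) (prim N (f - g) (negConj z)))
      (hΦ₁c.add hH₂c) ?_ ?_
    · intro τ
      exact (hΦ₁d τ).add (hH₂d τ)
    · intro γ hγ z
      have hk := congrArg Complex.re (key γ hγ z)
      simp only [Complex.add_re, Complex.sub_re, Complex.conj_re, Complex.zero_re] at hk ⊢
      linarith
  -- (ii)
  have hii : ∀ τ : ℍ, (-Complex.I) * ((f + g) τ - -(starRingEnd ℂ) ((f - g) (negConj τ))) = 0 := by
    refine deriv_eq_zero_of_re_invariant (N := N)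
      (H := fun z : ℍ => (-Complex.I) *
        (prim N (f + g) z - (starRingEnd ℂ) (prim N (f - g) (negConj z))))
      ((hΦ₁c.sub hH₂c).const_mul _) ?_ ?_
    · intro τ
      exact ((hΦ₁d τ).sub (hH₂d τ)).const_mul (-Complex.I)
    · intro γ hγ z
      have hk := congrArg Complex.im (key γ hγ z)
      simp only [Complex.add_im, Complex.sub_im, Complex.zero_im] at hk
      simp only [Complex.mul_re, Complex.neg_re, Complex.neg_im, Complex.I_re, Complex.I_im,
        Complex.sub_re, Complex.sub_im, Complex.conj_re, Complex.conj_im]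
      linarith
  have h1 : ∀ τ : ℍ, (f + g) τ = 0 := by
    intro τ
    have a := hi τ
    have b := hii τ
    have b' : (f + g) τ - -(starRingEnd ℂ) ((f - g) (negConj τ)) = 0 := by
      rcases mul_eq_zero.mp b with hb | hb
      · exact absurd hb (neg_ne_zero.mpr Complex.I_ne_zero)
      · exact hb
    linear_combination (1 / 2 : ℂ) * a + (1 / 2 : ℂ) * b'
  have h2 : ∀ τ : ℍ, (f - g) τ = 0 := by
    intro τ
    have a := hi (negConj τ)
    rw [h1 (negConj τ), negConj_negConj, zero_add, neg_eq_zero] at a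
    have := congrArg (starRingEnd ℂ) a
    simpa using this
  exact ⟨h1, h2⟩

theorem periodHomPair_injective (N : ℕ) [NeZero N] : Function.Injective (periodHomPair N) := by
  rw [injective_iff_map_eq_zero]
  rintro ⟨f, g⟩ h0
  obtain ⟨h1, h2⟩ := injective_aux f g h0
  have hf : f = 0 := by
    ext τ
    have a := h1 τ
    have b := h2 τ
    simp only [add_apply, sub_apply] at a b
    simp only [zero_apply]
    linear_combination (1 / 2 : ℂ) * a + (1 / 2 : ℂ) * b
  have hg : g = 0 := by
    ext τ
    have a := h1 τ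
    have b := h2 τ
    simp only [add_apply, sub_apply] at a b
    simp only [zero_apply]
    linear_combination (1 / 2 : ℂ) * a - (1 / 2 : ℂ) * b
  rw [hf, hg]
  rfl

end Fermat.Agent.S21
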