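import Mathlib
import Fermat.Agent.S21.Defs

/-!
# S21 / ParabolicConj: elements of `SL(2, ℤ)` with `trace² = 4` are `± δ T^m δ⁻¹`
-/

set_option autoImplicit false

namespace Fermat.Agent.S21

open Complex CongruenceSubgroup Filter Topology ModularCurve ModularCurve.Period
open UpperHalfPlane hiding I
open scoped MatrixGroups ModularForm Manifold Real

/-- An element of `SL(2, ℤ)` with first column `(1, 0)ᵀ` is a power of `T`. -/
private theorem parabolicConj_eq_T_zpow (M : SL(2, ℤ))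
    (h00 : (M : Matrix (Fin 2) (Fin 2) ℤ) 0 0 = 1)
    (h10 : (M : Matrix (Fin 2) (Fin 2) ℤ) 1 0 = 0) :
    M = ModularGroup.T ^ ((M : Matrix (Fin 2) (Fin 2) ℤ) 0 1) := by
  have hdet := M.det_coe
  rw [Matrix.det_fin_two, h00, h10] at hdet
  have h11 : (M : Matrix (Fin 2) (Fin 2) ℤ) 1 1 = 1 := by linarith
  ext i j
  rw [ModularGroup.coe_T_zpow]
  fin_cases i <;> fin_cases j <;> simp [h00, h10, h11]

/-- If `γ` fixes the primitive vector `(p, r)ᵀ`, then `γ` is conjugate to a power of `T`. -/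
private theorem parabolicConj_of_fixed_vector (γ : SL(2, ℤ)) (p r u v : ℤ)
    (hbez : u * p + v * r = 1)
    (h0 : (γ : Matrix (Fin 2) (Fin 2) ℤ) 0 0 * p + (γ : Matrix (Fin 2) (Fin 2) ℤ) 0 1 * r = p)
    (h1 : (γ : Matrix (Fin 2) (Fin 2) ℤ) 1 0 * p + (γ : Matrix (Fin 2) (Fin 2) ℤ) 1 1 * r = r) :
    ∃ (δ : SL(2, ℤ)) (m : ℤ), γ = δ * ModularGroup.T ^ m * δ⁻¹ := by
  let δ : SL(2, ℤ) := ⟨!![p, -v; r, u], by rw [Matrix.det_fin_two_of]; linarith⟩
  have hδ : (δ : Matrix (Fin 2) (Fin 2) ℤ) = !![p, -v; r, u] := rfl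
  have hδi : ((δ⁻¹ : SL(2, ℤ)) : Matrix (Fin 2) (Fin 2) ℤ) = !![u, v; -r, p] := by
    rw [Matrix.SpecialLinearGroup.coe_inv, hδ, Matrix.adjugate_fin_two_of]
    simp
  set M : SL(2, ℤ) := δ⁻¹ * γ * δ with hM
  have hMc : (M : Matrix (Fin 2) (Fin 2) ℤ)
      = !![u, v; -r, p] * (γ : Matrix (Fin 2) (Fin 2) ℤ) * !![p, -v; r, u] := by
    rw [hM, Matrix.SpecialLinearGroup.coe_mul, Matrix.SpecialLinearGroup.coe_mul, hδi, hδ]
  have h00 : (M : Matrix (Fin 2) (Fin 2) ℤ) 0 0 = 1 := by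
    rw [hMc]
    simp [Matrix.mul_apply, Fin.sum_univ_two, Matrix.vecMul, dotProduct]
    linear_combination u * h0 + v * h1 + hbez
  have h10 : (M : Matrix (Fin 2) (Fin 2) ℤ) 1 0 = 0 := by
    rw [hMc]
    simp [Matrix.mul_apply, Fin.sum_univ_two, Matrix.vecMul, dotProduct]
    linear_combination (-r) * h0 + p * h1
  refine ⟨δ, (M : Matrix (Fin 2) (Fin 2) ℤ) 0 1, ?_⟩
  rw [← parabolicConj_eq_T_zpow M h00 h10, hM]
  group

/-- The trace `2` case. -/
private theorem parabolicConj_trace_two (γ : SL(2, ℤ))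
    (htr : ((γ : SL(2, ℤ)) : Matrix (Fin 2) (Fin 2) ℤ).trace = 2) :
    ∃ (δ : SL(2, ℤ)) (m : ℤ), γ = δ * ModularGroup.T ^ m * δ⁻¹ := by
  rw [Matrix.trace_fin_two] at htr
  have hdet := γ.det_coe
  rw [Matrix.det_fin_two] at hdet
  set a := (γ : Matrix (Fin 2) (Fin 2) ℤ) 0 0 with ha
  set b := (γ : Matrix (Fin 2) (Fin 2) ℤ) 0 1 with hb
  set c := (γ : Matrix (Fin 2) (Fin 2) ℤ) 1 0 with hc
  set d := (γ : Matrix (Fin 2) (Fin 2) ℤ) 1 1 with hd
  have hd' : d = 2 - a := by linarith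
  have hsq : (a - 1) ^ 2 = -(b * c) := by
    rw [hd'] at hdet
    linear_combination -hdet
  by_cases hc0 : c = 0
  · -- then `a = 1`, and `(1, 0)ᵀ` is fixed
    have ha1 : a = 1 := by
      have : (a - 1) ^ 2 = 0 := by rw [hsq, hc0]; ring
      have := pow_eq_zero_iff (n := 2) (by norm_num) |>.mp this
      linarith
    refine parabolicConj_of_fixed_vector γ 1 0 1 0 (by ring) ?_ ?_
    · rw [← ha, ha1]; ring
    · rw [← hc, hc0]; ring
  · -- `(a - 1, c)ᵀ` is a nonzero fixed vector; divide by the gcd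
    set g : ℤ := (Int.gcd (a - 1) c : ℤ) with hg
    have hg0 : g ≠ 0 := by
      rw [hg]
      exact_mod_cast (Int.gcd_pos_of_ne_zero_right (a - 1) hc0).ne'
    obtain ⟨p, hp⟩ : g ∣ a - 1 := Int.gcd_dvd_left _ _
    obtain ⟨r, hr⟩ : g ∣ c := Int.gcd_dvd_right _ _
    have hbz : g = (a - 1) * Int.gcdA (a - 1) c + c * Int.gcdB (a - 1) c :=
      Int.gcd_eq_gcd_ab (a - 1) c
    set x := Int.gcdA (a - 1) c
    set y := Int.gcdB (a - 1) c
    have hbez : x * p + y * r = 1 := by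
      apply mul_left_cancel₀ hg0
      calc g * (x * p + y * r) = (g * p) * x + (g * r) * y := by ring
        _ = (a - 1) * x + c * y := by rw [← hp, ← hr]
        _ = g * 1 := by rw [← hbz, mul_one]
    refine parabolicConj_of_fixed_vector γ p r x y hbez ?_ ?_
    · apply mul_left_cancel₀ hg0
      calc g * (a * p + b * r) = a * (g * p) + b * (g * r) := by ring
        _ = a * (a - 1) + b * c := by rw [← hp, ← hr]
        _ = a - 1 := by linear_combination hsq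
        _ = g * p := hp
    · apply mul_left_cancel₀ hg0
      calc g * (c * p + d * r) = c * (g * p) + d * (g * r) := by ring
        _ = c * (a - 1) + d * c := by rw [← hp, ← hr]
        _ = c := by rw [hd']; ring
        _ = g * r := hr

/-- An element of `SL(2, ℤ)` with `trace ^ 2 = 4` is conjugate to `± T ^ m`. -/
theorem exists_conj_T_zpow (γ : SL(2, ℤ))
    (htr : ((γ : SL(2, ℤ)) : Matrix (Fin 2) (Fin 2) ℤ).trace ^ 2 = 4) :
    ∃ (δ : SL(2, ℤ)) (m : ℤ),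
      γ = δ * ModularGroup.T ^ m * δ⁻¹ ∨ γ = -(δ * ModularGroup.T ^ m * δ⁻¹) := by
  have h : ((γ : SL(2, ℤ)) : Matrix (Fin 2) (Fin 2) ℤ).trace = 2 ∨
      ((γ : SL(2, ℤ)) : Matrix (Fin 2) (Fin 2) ℤ).trace = -2 := by
    have h4 : ((γ : SL(2, ℤ)) : Matrix (Fin 2) (Fin 2) ℤ).trace ^ 2 = 2 ^ 2 := by
      rw [htr]; norm_num
    exact sq_eq_sq_iff_eq_or_eq_neg.mp h4
  rcases h with h | h
  · obtain ⟨δ, m, hm⟩ := parabolicConj_trace_two γ h
    exact ⟨δ, m, Or.inl hm⟩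
  · have h' : (((-γ : SL(2, ℤ)) : SL(2, ℤ)) : Matrix (Fin 2) (Fin 2) ℤ).trace = 2 := by
      rw [Matrix.SpecialLinearGroup.coe_neg, Matrix.trace_neg, h]; norm_num
    obtain ⟨δ, m, hm⟩ := parabolicConj_trace_two (-γ) h'
    exact ⟨δ, m, Or.inr (by rw [← hm, neg_neg])⟩

end Fermat.Agent.S21
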