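import Mathlib
import Fermat.Agent.S21.Calc
import Fermat.Agent.S21.ParabolicConj

/-!
# S21 / ParabolicVanish: periods of parabolic elements vanish
-/

set_option autoImplicit false

namespace Fermat.Agent.S21

open Complex CongruenceSubgroup Filter Topology ModularCurve ModularCurve.Period
open UpperHalfPlane hiding I
open scoped MatrixGroups ModularForm Manifold Real

/-- Translation by `T ^ m` tends to `atImInfty` along `atImInfty`. -/
private theorem parabolicVanish_tendsto_T_zpow (m : ℤ) :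
    Tendsto (fun w : ℍ => ModularGroup.T ^ m • w) atImInfty atImInfty := by
  rw [atImInfty, tendsto_comap_iff]
  have h : (UpperHalfPlane.im ∘ fun w : ℍ => ModularGroup.T ^ m • w) = UpperHalfPlane.im := by
    funext w
    exact ModularGroup.im_T_zpow_smul w m
  rw [h]
  exact tendsto_comap

/-- In both cases of the conjugacy statement, `γ` acts on `δ • w` as `δ • (T ^ m • w)`. -/
private theorem parabolicVanish_smul_eq (γ δ : SL(2, ℤ)) (m : ℤ)
    (h : γ = δ * ModularGroup.T ^ m * δ⁻¹ ∨ γ = -(δ * ModularGroup.T ^ m * δ⁻¹)) (w : ℍ) :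
    γ • (δ • w) = δ • (ModularGroup.T ^ m • w) := by
  have key : (δ * ModularGroup.T ^ m * δ⁻¹) • (δ • w) = δ • (ModularGroup.T ^ m • w) := by
    rw [← mul_smul, ← mul_smul]
    congr 1
    group
  rcases h with h | h
  · rw [h, key]
  · rw [h, ModularGroup.SL_neg_smul, key]

/-- If `F` is holomorphic in `q_N` at all cusps and `F (γ • z) - F z = c` for all `z`, where
`γ ∈ SL(2, ℤ)` has `trace ^ 2 = 4`, then `c = 0`. -/
theorem cuspHolo_period_eq_zero {N : ℕ} [NeZero N] {F : ℍ → ℂ} (hF : CuspHolo N F)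
    (γ : SL(2, ℤ)) (htr : ((γ : SL(2, ℤ)) : Matrix (Fin 2) (Fin 2) ℤ).trace ^ 2 = 4)
    (c : ℂ) (hc : ∀ z : ℍ, F (γ • z) - F z = c) : c = 0 := by
  obtain ⟨δ, m, hγ⟩ := exists_conj_T_zpow γ htr
  obtain ⟨Ψ, hΨ, hFΨ⟩ := hF δ
  -- `Ψ` is continuous at `0`
  have hcont : ContinuousAt Ψ 0 :=
    (hΨ.differentiableAt (Metric.ball_mem_nhds (0 : ℂ) one_pos)).continuousAt
  have h1 : Tendsto (fun w : ℍ => Ψ (qN N (w : ℂ))) atImInfty (𝓝 (Ψ 0)) :=
    hcont.tendsto.comp (tendsto_qN_atImInfty N)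
  have h2 : Tendsto (fun w : ℍ => Ψ (qN N ((ModularGroup.T ^ m • w : ℍ) : ℂ))) atImInfty
      (𝓝 (Ψ 0)) :=
    h1.comp (parabolicVanish_tendsto_T_zpow m)
  have h3 : Tendsto (fun w : ℍ => Ψ (qN N ((ModularGroup.T ^ m • w : ℍ) : ℂ)) - Ψ (qN N (w : ℂ)))
      atImInfty (𝓝 (Ψ 0 - Ψ 0)) := h2.sub h1
  have h4 : (fun w : ℍ => Ψ (qN N ((ModularGroup.T ^ m • w : ℍ) : ℂ)) - Ψ (qN N (w : ℂ))) =
      fun _ => c := by
    funext w
    rw [← hFΨ, ← hFΨ, ← parabolicVanish_smul_eq γ δ m hγ w]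
    exact hc (δ • w)
  rw [h4, sub_self] at h3
  exact tendsto_nhds_unique tendsto_const_nhds h3

end Fermat.Agent.S21
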