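import Mathlib
import Fermat.Agent.S21.Injective
import Fermat.Agent.S21.ParabolicVanish
import Fermat.Agent.S21.DimBound
import Fermat.Prelude.Def_ModularCurve_GenusNumerics

/-!
# S21 / Core: Eichler–Shimura in weight 2, assuming the dimension formula (S20) and the
orbit counts on `SL₂(ℤ)/Γ₀(N)` as hypotheses (sorry-free, no dependency on other teams)
-/

set_option autoImplicit false

namespace Fermat.Agent.S21

open Complex CongruenceSubgroup Filter Topology ModularCurve ModularCurve.Period
open UpperHalfPlane hiding I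
open scoped MatrixGroups ModularForm Manifold Real

variable {N : ℕ} [NeZero N]

theorem periodMap_mem_parabolicHoms (f : CuspForm (Gamma0 N) 2) :
    periodMap N f ∈ parabolicHoms ℂ (Gamma0 N) ℂ := by
  rw [mem_parabolicHoms_iff]
  intro γ hγ
  have hE : IsEquivariantPrimitive (Gamma0 N) (prim N f) := (hasEquivariantPrimitive_prim f).2.2.1
  obtain ⟨c, hc⟩ := hE γ
  have h0 := cuspHolo_period_eq_zero (prim_cuspHolo f) (γ : SL(2, ℤ)) hγ c hc
  rw [periodMap_apply f γ UpperHalfPlane.I, hc, h0]

theorem periodHomPair_mem_parabolicHoms (x : CuspForm (Gamma0 N) 2 × CuspForm (Gamma0 N) 2) :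
    periodHomPair N x ∈ parabolicHoms ℂ (Gamma0 N) ℂ := by
  obtain ⟨f, g⟩ := x
  rw [periodHomPair_eq]
  exact add_mem
    (add_mem (periodMap_mem_parabolicHoms f)
      (charInvolution_mem_parabolicHoms N ℂ ℂ (periodMap_mem_parabolicHoms f)))
    (sub_mem (periodMap_mem_parabolicHoms g)
      (charInvolution_mem_parabolicHoms N ℂ ℂ (periodMap_mem_parabolicHoms g)))

/-- Eichler–Shimura in weight 2, conditional on the dimension formula for `S₂(Γ₀(N))` and on the
orbit counts for `S`, `S * T`, `T` acting on `SL₂(ℤ)/Γ₀(N)`. -/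
theorem main_of_counts (N : ℕ) [NeZero N]
    (hS20 : (Module.finrank ℂ (CuspForm (Gamma0 N) 2) : ℚ) = genusFormula N)
    (hψ : Nat.card (Cos N) = dedekindPsi N)
    (hoS : 2 * Nat.card (MulAction.orbitRel.Quotient (Subgroup.zpowers ModularGroup.S) (Cos N))
      = Nat.card (Cos N) + nuTwo N)
    (hoU : 3 * Nat.card (MulAction.orbitRel.Quotient
        (Subgroup.zpowers (ModularGroup.S * ModularGroup.T)) (Cos N))
      = Nat.card (Cos N) + 2 * nuThree N)
    (hoT : Nat.card (MulAction.orbitRel.Quotient (Subgroup.zpowers ModularGroup.T) (Cos N))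
      = cuspCount N) :
    Function.Injective (periodHomPair N) ∧
      LinearMap.range (periodHomPair N) = parabolicHoms ℂ (Gamma0 N) ℂ := by
  have hinj := periodHomPair_injective N
  refine ⟨hinj, ?_⟩
  obtain ⟨hfin, hdim⟩ := finrank_parabolicHoms_le N
  have hle : LinearMap.range (periodHomPair N) ≤ parabolicHoms ℂ (Gamma0 N) ℂ := by
    rintro _ ⟨x, rfl⟩
    exact periodHomPair_mem_parabolicHoms x
  -- the source is finite-dimensional, because it injects into the parabolic homomorphisms
  let L : (CuspForm (Gamma0 N) 2 × CuspForm (Gamma0 N) 2) →ₗ[ℂ] parabolicHoms ℂ (Gamma0 N) ℂ :=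
    (periodHomPair N).codRestrict _ periodHomPair_mem_parabolicHoms
  have hL : Function.Injective L := fun x y hxy => hinj (congrArg Subtype.val hxy)
  have : Module.Finite ℂ (CuspForm (Gamma0 N) 2 × CuspForm (Gamma0 N) 2) :=
    Module.Finite.of_injective L hL
  have : Module.Finite ℂ (CuspForm (Gamma0 N) 2) :=
    Module.Finite.of_injective (LinearMap.inl ℂ _ (CuspForm (Gamma0 N) 2)) LinearMap.inl_injective
  have hsrc : Module.finrank ℂ (CuspForm (Gamma0 N) 2 × CuspForm (Gamma0 N) 2)
      = 2 * Module.finrank ℂ (CuspForm (Gamma0 N) 2) := by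
    rw [Module.finrank_prod]; ring
  have hrange : Module.finrank ℂ (LinearMap.range (periodHomPair N))
      = 2 * Module.finrank ℂ (CuspForm (Gamma0 N) 2) := by
    rw [LinearMap.finrank_range_of_inj hinj, hsrc]
  have hP : Module.finrank ℂ (parabolicHoms ℂ (Gamma0 N) ℂ)
      ≤ 2 * Module.finrank ℂ (CuspForm (Gamma0 N) 2) := by
    have h1 : ((Module.finrank ℂ (parabolicHoms ℂ (Gamma0 N) ℂ) : ℕ) : ℚ)
        + (Nat.card (MulAction.orbitRel.Quotient (Subgroup.zpowers ModularGroup.S) (Cos N)) : ℕ)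
        + (Nat.card (MulAction.orbitRel.Quotient (Subgroup.zpowers ModularGroup.T) (Cos N)) : ℕ)
        + (Nat.card (MulAction.orbitRel.Quotient
            (Subgroup.zpowers (ModularGroup.S * ModularGroup.T)) (Cos N)) : ℕ)
        ≤ (Nat.card (Cos N) : ℕ) + 2 := by exact_mod_cast hdim
    have h2 : (2 : ℚ) * (Nat.card (MulAction.orbitRel.Quotient
        (Subgroup.zpowers ModularGroup.S) (Cos N)) : ℕ) = (Nat.card (Cos N) : ℕ) + nuTwo N := by
      exact_mod_cast hoS
    have h3 : (3 : ℚ) * (Nat.card (MulAction.orbitRel.Quotient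
        (Subgroup.zpowers (ModularGroup.S * ModularGroup.T)) (Cos N)) : ℕ)
        = (Nat.card (Cos N) : ℕ) + 2 * nuThree N := by exact_mod_cast hoU
    have h4 : ((Nat.card (MulAction.orbitRel.Quotient
        (Subgroup.zpowers ModularGroup.T) (Cos N)) : ℕ) : ℚ) = cuspCount N := by
      exact_mod_cast hoT
    have h5 : ((Nat.card (Cos N) : ℕ) : ℚ) = dedekindPsi N := by exact_mod_cast hψ
    have h6 : ((Module.finrank ℂ (parabolicHoms ℂ (Gamma0 N) ℂ) : ℕ) : ℚ)
        ≤ 2 * (Module.finrank ℂ (CuspForm (Gamma0 N) 2) : ℕ) := by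
      rw [hS20, genusFormula]
      linarith
    exact_mod_cast h6
  exact Submodule.eq_of_le_of_finrank_le hle (hrange ▸ hP)

end Fermat.Agent.S21
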