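import Mathlib
import Fermat.Agent.S21.Core
import Fermat.Agent.S24.Comb

/-!
# S21 / Main: Eichler–Shimura in weight 2, assuming only the dimension formula (S20) as a
hypothesis (the orbit counts are taken from `Fermat.Agent.S24` (component C))
-/

set_option autoImplicit false

namespace Fermat.Agent.S21

open Complex CongruenceSubgroup Filter Topology ModularCurve ModularCurve.Period
open UpperHalfPlane hiding I
open scoped MatrixGroups ModularForm Manifold Real

/-- Eichler–Shimura in weight 2, conditional on the dimension formula for `S₂(Γ₀(N))`. -/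
theorem main (N : ℕ) [NeZero N]
    (hS20 : (Module.finrank ℂ (CuspForm (Gamma0 N) 2) : ℚ) = genusFormula N) :
    Function.Injective (periodHomPair N) ∧
      LinearMap.range (periodHomPair N) = parabolicHoms ℂ (Gamma0 N) ℂ :=
  main_of_counts N hS20 (Fermat.Agent.S24.cosetCard_eq N) (Fermat.Agent.S24.two_mul_orbCard_S N)
    (Fermat.Agent.S24.three_mul_orbCard_ST N) (Fermat.Agent.S24.orbCard_T N)

end Fermat.Agent.S21
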