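import Mathlib
import Fermat.Agent.S21.Main

/-!
# S21 / UpperBound: unconditional consequences of the Eichler–Shimura argument

* `finite_cuspForm_two`: `S₂(Γ₀(N))` is finite-dimensional;
* `finrank_le_genusFormula`: `dim S₂(Γ₀(N)) ≤ genusFormula N` (unconditional, sorry-free);
* `main_of_ge`: the S21 statement follows from the lower bound `genusFormula N ≤ dim S₂(Γ₀(N))`.
-/

set_option autoImplicit false

namespace Fermat.Agent.S21

open Complex CongruenceSubgroup Filter Topology ModularCurve ModularCurve.Period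
open UpperHalfPlane hiding I
open scoped MatrixGroups ModularForm Manifold Real

/-- The period map pair as an injective linear map into the parabolic homomorphisms. -/
theorem exists_injective_to_parabolicHoms (N : ℕ) [NeZero N] :
    ∃ L : (CuspForm (Gamma0 N) 2 × CuspForm (Gamma0 N) 2) →ₗ[ℂ] parabolicHoms ℂ (Gamma0 N) ℂ,
      Function.Injective L :=
  ⟨(periodHomPair N).codRestrict _ periodHomPair_mem_parabolicHoms,
    fun _ _ hxy => periodHomPair_injective N (congrArg Subtype.val hxy)⟩

/-- `S₂(Γ₀(N))` is finite-dimensional. -/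
theorem finite_cuspForm_two (N : ℕ) [NeZero N] : Module.Finite ℂ (CuspForm (Gamma0 N) 2) := by
  obtain ⟨hfin, -⟩ := finrank_parabolicHoms_le N
  obtain ⟨L, hL⟩ := exists_injective_to_parabolicHoms N
  have : Module.Finite ℂ (CuspForm (Gamma0 N) 2 × CuspForm (Gamma0 N) 2) :=
    Module.Finite.of_injective L hL
  exact Module.Finite.of_injective (LinearMap.inl ℂ _ (CuspForm (Gamma0 N) 2))
    LinearMap.inl_injective

/-- `2 dim S₂(Γ₀(N)) + o_S + o_T + o_{ST} ≤ |SL₂(ℤ)/Γ₀(N)| + 2`. -/
theorem two_mul_finrank_add_le (N : ℕ) [NeZero N] :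
    2 * Module.finrank ℂ (CuspForm (Gamma0 N) 2)
        + Nat.card (MulAction.orbitRel.Quotient (Subgroup.zpowers ModularGroup.S) (Cos N))
        + Nat.card (MulAction.orbitRel.Quotient (Subgroup.zpowers ModularGroup.T) (Cos N))
        + Nat.card (MulAction.orbitRel.Quotient
            (Subgroup.zpowers (ModularGroup.S * ModularGroup.T)) (Cos N))
      ≤ Nat.card (Cos N) + 2 := by
  obtain ⟨hfin, hdim⟩ := finrank_parabolicHoms_le N
  obtain ⟨L, hL⟩ := exists_injective_to_parabolicHoms N
  have := finite_cuspForm_two N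
  have h1 := LinearMap.finrank_le_finrank_of_injective hL
  rw [Module.finrank_prod] at h1
  omega

/-- Unconditional upper bound: `dim S₂(Γ₀(N)) ≤ genusFormula N`. -/
theorem finrank_le_genusFormula (N : ℕ) [NeZero N] :
    (Module.finrank ℂ (CuspForm (Gamma0 N) 2) : ℚ) ≤ genusFormula N := by
  have hdim := two_mul_finrank_add_le N
  have hψ := Fermat.Agent.S24.cosetCard_eq N
  have hoS := Fermat.Agent.S24.two_mul_orbCard_S N
  have hoU := Fermat.Agent.S24.three_mul_orbCard_ST N
  have hoT := Fermat.Agent.S24.orbCard_T N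
  have h1 : (2 : ℚ) * (Module.finrank ℂ (CuspForm (Gamma0 N) 2) : ℕ)
      + (Fermat.Agent.S24.orbCard N ModularGroup.S : ℕ)
      + (Fermat.Agent.S24.orbCard N ModularGroup.T : ℕ)
      + (Fermat.Agent.S24.orbCard N (ModularGroup.S * ModularGroup.T) : ℕ)
      ≤ (Fermat.Agent.S24.cosetCard N : ℕ) + 2 := by exact_mod_cast hdim
  have h2 : (2 : ℚ) * (Fermat.Agent.S24.orbCard N ModularGroup.S : ℕ)
      = (Fermat.Agent.S24.cosetCard N : ℕ) + nuTwo N := by exact_mod_cast hoS
  have h3 : (3 : ℚ) * (Fermat.Agent.S24.orbCard N (ModularGroup.S * ModularGroup.T) : ℕ)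
      = (Fermat.Agent.S24.cosetCard N : ℕ) + 2 * nuThree N := by exact_mod_cast hoU
  have h4 : ((Fermat.Agent.S24.orbCard N ModularGroup.T : ℕ) : ℚ) = cuspCount N := by
    exact_mod_cast hoT
  have h5 : ((Fermat.Agent.S24.cosetCard N : ℕ) : ℚ) = dedekindPsi N := by exact_mod_cast hψ
  rw [genusFormula]
  linarith

/-- The S21 statement follows from the lower bound `genusFormula N ≤ dim S₂(Γ₀(N))`. -/
theorem main_of_ge (N : ℕ) [NeZero N]
    (h : genusFormula N ≤ (Module.finrank ℂ (CuspForm (Gamma0 N) 2) : ℚ)) :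
    Function.Injective (periodHomPair N) ∧
      LinearMap.range (periodHomPair N) = parabolicHoms ℂ (Gamma0 N) ℂ :=
  main N (le_antisymm (finrank_le_genusFormula N) h)

end Fermat.Agent.S21
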